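/-
Project MW (S17), local core, leaf [RESb] (helper22), file 1: polynomial toolkit (weighted
homogeneity under substitution, scaling, homogeneous quotients, coefficients).  Prefix `mw_resb_`.
-/
import Fermat.Agent.MW.Core.RESa

set_option autoImplicit false

noncomputable section

namespace Fermat.Agent.MW

open MvPolynomial
open scoped Classical

section Poly

variable {R : Type*} [CommSemiring R] {σ τ : Type*}

theorem mw_resb_weight_add (w w' : σ → ℕ) (m : σ →₀ ℕ) :
    Finsupp.weight (w + w') m = Finsupp.weight w m + Finsupp.weight w' m := by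
  simp only [Finsupp.weight_apply, Finsupp.sum, Pi.add_apply, smul_eq_mul, mul_add,
    Finset.sum_add_distrib]

/-- homogeneity for two weights gives homogeneity for their sum -/
theorem mw_resb_homog_add {p : MvPolynomial σ R} {w w' : σ → ℕ} {d d' : ℕ}
    (h : p.IsWeightedHomogeneous w d) (h' : p.IsWeightedHomogeneous w' d') :
    p.IsWeightedHomogeneous (w + w') (d + d') := by
  intro m hm
  rw [mw_resb_weight_add, h hm, h' hm]

/-- every polynomial is homogeneous of degree `0` for the zero weight -/
theorem mw_resb_homog_zero (p : MvPolynomial σ R) :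
    p.IsWeightedHomogeneous (fun _ => 0 : σ → ℕ) 0 := by
  intro m _
  simp [Finsupp.weight_apply, Finsupp.sum]

/-- **substitution**: if `g i` is `w'`-homogeneous of degree `w i` for every variable `i` and `p`
is `w`-homogeneous of degree `d`, then `p(g)` is `w'`-homogeneous of degree `d`. -/
theorem mw_resb_aeval_homog (p : MvPolynomial σ R) (w : σ → ℕ) (w' : τ → ℕ) (d : ℕ)
    (g : σ → MvPolynomial τ R) (hg : ∀ i, (g i).IsWeightedHomogeneous w' (w i))
    (hp : p.IsWeightedHomogeneous w d) : (aeval g p).IsWeightedHomogeneous w' d := by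
  rw [p.as_sum, map_sum]
  refine IsWeightedHomogeneous.sum _ _ _ fun m hm => ?_
  rw [aeval_monomial]
  have hd : Finsupp.weight w m = d := hp (mem_support_iff.1 hm)
  rw [← hd, ← zero_add (Finsupp.weight w m)]
  refine (isWeightedHomogeneous_C w' _).mul ?_
  rw [Finsupp.weight_apply, Finsupp.prod, Finsupp.sum]
  exact IsWeightedHomogeneous.prod _ _ _ fun i _ => (hg i).pow _

/-- **scaling**: `p(t^{w} g) = t^d p(g)` for `p` `w`-homogeneous of degree `d`. -/
theorem mw_resb_scale {A : Type*} [CommSemiring A] [Algebra R A] (p : MvPolynomial σ R)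
    (w : σ → ℕ) (d : ℕ) (hp : p.IsWeightedHomogeneous w d) (t : A) (g : σ → A) :
    aeval (fun v => t ^ w v * g v) p = t ^ d * aeval g p := by
  conv_lhs => rw [p.as_sum]
  conv_rhs => rw [p.as_sum]
  rw [map_sum, map_sum, Finset.mul_sum]
  refine Finset.sum_congr rfl fun m hm => ?_
  have hd : Finsupp.weight w m = d := hp (mem_support_iff.1 hm)
  rw [aeval_monomial, aeval_monomial, ← hd, Finsupp.weight_apply]
  simp only [Finsupp.prod, Finsupp.sum, mul_pow, Finset.prod_mul_distrib, ← pow_mul,
    Finset.prod_pow_eq_pow_sum, smul_eq_mul]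
  rw [show ∀ a b c : A, a * (b * c) = b * (a * c) from fun a b c => by ring]
  congr 2
  refine Finset.sum_congr rfl fun i _ => ?_
  rw [mul_comm]

end Poly

section Quot

variable {K : Type*} [CommRing K] {σ : Type*}

/-- the homogeneous components of a product with a homogeneous factor -/
theorem mw_resb_component_mul (w : σ → ℕ) (e n : ℕ) (l Q : MvPolynomial σ K)
    (hl : l.IsWeightedHomogeneous w e) :
    weightedHomogeneousComponent w (e + n) (l * Q) = l * weightedHomogeneousComponent w n Q := by
  ext m'
  rw [coeff_weightedHomogeneousComponent, coeff_mul, coeff_mul]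
  by_cases hm' : Finsupp.weight w m' = e + n
  · rw [if_pos hm']
    refine Finset.sum_congr rfl fun ab hab => ?_
    by_cases ha : coeff ab.1 l = 0
    · rw [ha, zero_mul, zero_mul]
    · have h1 : Finsupp.weight w ab.1 = e := hl ha
      have h2 : ab.1 + ab.2 = m' := Finset.HasAntidiagonal.mem_antidiagonal.1 hab
      rw [coeff_weightedHomogeneousComponent, if_pos]
      rw [← h2, map_add, h1] at hm'
      omega
  · rw [if_neg hm']
    symm
    refine Finset.sum_eq_zero fun ab hab => ?_
    by_cases ha : coeff ab.1 l = 0
    · rw [ha, zero_mul]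
    · have h1 : Finsupp.weight w ab.1 = e := hl ha
      have h2 : ab.1 + ab.2 = m' := Finset.HasAntidiagonal.mem_antidiagonal.1 hab
      rw [coeff_weightedHomogeneousComponent, if_neg, mul_zero]
      intro hb
      apply hm'
      rw [← h2, map_add, h1, hb]

/-- **homogeneous quotients**: in a polynomial ring over a domain, if `D = l · Q` with `D`, `l ≠ 0`
weighted homogeneous of degrees `d`, `e`, then `Q` is weighted homogeneous of degree `d - e`. -/
theorem mw_resb_quot_homog [IsDomain K] (w : σ → ℕ) (e d : ℕ) (l Q D : MvPolynomial σ K)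
    (hl : l.IsWeightedHomogeneous w e) (hl0 : l ≠ 0) (hD : D.IsWeightedHomogeneous w d)
    (h : D = l * Q) : Q.IsWeightedHomogeneous w (d - e) := by
  intro m hm
  set n := Finsupp.weight w m with hn
  have hQn : weightedHomogeneousComponent w n Q ≠ 0 := by
    intro h0
    apply hm
    have := congrArg (coeff m) h0
    rwa [coeff_weightedHomogeneousComponent, if_pos hn.symm, coeff_zero] at this
  have h1 : weightedHomogeneousComponent w (e + n) D = l * weightedHomogeneousComponent w n Q := by
    rw [h, mw_resb_component_mul w e n l Q hl]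
  by_cases hen : e + n = d
  · show n = d - e
    omega
  · exfalso
    rw [hD.weightedHomogeneousComponent_ne (e + n) hen] at h1
    exact hQn ((mul_eq_zero.1 h1.symm).resolve_left hl0)

end Quot

section Coeff

variable {K : Type} [CommRing K] {α β : Type}

/-- the coefficients (in `K[α]`) of a polynomial `w`-homogeneous of degree `k` in the first block
(and of weight `0` in the second block) are `w`-homogeneous of degree `k` -/
theorem mw_resb_coeff_homog (p : MvPolynomial (α ⊕ β) K) (w : α → ℕ) (k : ℕ)
    (hp : p.IsWeightedHomogeneous (Sum.elim w (fun _ => 0) : α ⊕ β → ℕ) k)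
    (m : β →₀ ℕ) :
    (coeff m (mw_resa_iter p)).IsWeightedHomogeneous w k := by
  have hsum : coeff m (mw_resa_iter p) =
      ∑ n ∈ p.support, coeff m (mw_resa_iter (monomial n (coeff n p))) := by
    conv_lhs => rw [← support_sum_monomial_coeff p]
    rw [map_sum, coeff_sum]
  rw [hsum]
  refine IsWeightedHomogeneous.sum _ _ _ ?_
  intro n hn
  have hn0 : coeff n p ≠ 0 := mem_support_iff.1 hn
  have hw := hp hn0
  rw [← Finsupp.comapDomain_sumElim_comapDomain n] at hw ⊢
  set d' := Finsupp.comapDomain Sum.inl n Sum.inl_injective.injOn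
  set m' := Finsupp.comapDomain Sum.inr n Sum.inr_injective.injOn
  rw [mw_resa_iter_monomial, coeff_monomial]
  split_ifs
  · refine isWeightedHomogeneous_monomial _ _ _ ?_
    rw [Finsupp.weight_apply] at hw ⊢
    rw [Finsupp.sum_sumElim] at hw
    simpa [Function.comp_def, Finsupp.sum] using hw
  · exact isWeightedHomogeneous_zero _ _ _

/-- compatibility of the coefficients with evaluation of the first block -/
theorem mw_resb_coeff_eval (c : α → K) (p : MvPolynomial (α ⊕ β) K) (m : β →₀ ℕ) :
    coeff m (aeval (Sum.elim (fun j => C (c j)) (fun b => X b)) p : MvPolynomial β K) =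
      eval c (coeff m (mw_resa_iter p)) := mw_resa_coeff_subL c p m

end Coeff

end Fermat.Agent.MW
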