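/-
Project MW (S17), local core, leaf [RESb] (helper22), file 2: THE POLYNOMIAL QUOTIENT `R″_j`.

In `A = Q̄[c, U, X, Y]` (variables `mw_Var4 r s`): `R̃ := R(c, λ_X(U))`, `ℓ := ⟨c, Y⟩`,
`θ_j : c_i ↦ Y_j c_i - δ_{ij} ℓ`.  Modulo `ℓ`, `θ_j` is the scaling `c ↦ Y_j c`, hence
`Y_j^k R̃ - θ_j(R̃) = ℓ · R″_j`, and `R″_j` is multi-homogeneous of multidegree `(k-1, a, a, k-1)`
(`mw_resb_quot_homog`).  `θ_j(R̃) = R(Y_j c - ⟨c,Y⟩ e_j, λ_X(U))` dies on the curve (file 3).
Prefix `mw_resb_`.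
-/
import Fermat.Agent.MW.Core.RESb.Poly

set_option autoImplicit false

noncomputable section

namespace Fermat.Agent.MW

open MvPolynomial
open scoped Classical

variable (r s : ℕ)

/-- the weight of the `i`-th block of `mw_Var4` -/
def mw_resb_wt (i : Fin 4) : mw_Var4 r s → ℕ := fun v => if mw_block4 r s v = i then 1 else 0

/-- `ℓ = ⟨c, Y⟩` -/
def mw_resb_ell : MvPolynomial (mw_Var4 r s) mw_K :=
  ∑ i : Fin (s + 1), X (Sum.inl i) * X (Sum.inr (Sum.inr (Sum.inr i)))

/-- `λ_X(U)_b = ∑_a X_a (U_{ab} - U_{ba})` -/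
def mw_resb_lam (b : Fin (r + 1)) : MvPolynomial (mw_Var4 r s) mw_K :=
  ∑ a : Fin (r + 1), X (Sum.inr (Sum.inr (Sum.inl a))) *
    (X (Sum.inr (Sum.inl (a, b))) - X (Sum.inr (Sum.inl (b, a))))

/-- `R̃ = R(c, λ_X(U))` -/
def mw_resb_Rt (R : MvPolynomial (Fin (s + 1) ⊕ Fin (r + 1)) mw_K) :
    MvPolynomial (mw_Var4 r s) mw_K :=
  aeval (Sum.elim (fun j => X (Sum.inl j)) (mw_resb_lam r s)) R

/-- `θ_j : c_i ↦ Y_j c_i - δ_{ij} ⟨c, Y⟩` -/
def mw_resb_theta (j : Fin (s + 1)) :
    MvPolynomial (mw_Var4 r s) mw_K →ₐ[mw_K] MvPolynomial (mw_Var4 r s) mw_K :=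
  aeval (Sum.elim
    (fun i => X (Sum.inr (Sum.inr (Sum.inr j))) * X (Sum.inl i)
      - (if i = j then mw_resb_ell r s else 0))
    (fun v => X (Sum.inr v)))

/-- the scaling `c_i ↦ Y_j c_i` -/
def mw_resb_scl (j : Fin (s + 1)) :
    MvPolynomial (mw_Var4 r s) mw_K →ₐ[mw_K] MvPolynomial (mw_Var4 r s) mw_K :=
  aeval (Sum.elim (fun i => X (Sum.inr (Sum.inr (Sum.inr j))) * X (Sum.inl i))
    (fun v => X (Sum.inr v)))

variable {r s}

theorem mw_resb_wt_X (i : Fin 4) (v : mw_Var4 r s) :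
    (X v : MvPolynomial (mw_Var4 r s) mw_K).IsWeightedHomogeneous (mw_resb_wt r s i)
      (if mw_block4 r s v = i then 1 else 0) :=
  isWeightedHomogeneous_X mw_K _ _

/-- `ℓ` is multi-homogeneous of multidegree `(1, 0, 0, 1)` -/
theorem mw_resb_ell_homog (i : Fin 4) :
    (mw_resb_ell r s).IsWeightedHomogeneous (mw_resb_wt r s i) (![1, 0, 0, 1] i) := by
  unfold mw_resb_ell
  refine IsWeightedHomogeneous.sum _ _ _ fun l _ => ?_
  have h := (mw_resb_wt_X i (Sum.inl l : mw_Var4 r s)).mul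
    (mw_resb_wt_X i (Sum.inr (Sum.inr (Sum.inr l)) : mw_Var4 r s))
  fin_cases i <;> simpa [mw_block4] using h

/-- `λ_X(U)_b` is multi-homogeneous of multidegree `(0, 1, 1, 0)` -/
theorem mw_resb_lam_homog (b : Fin (r + 1)) (i : Fin 4) :
    (mw_resb_lam r s b).IsWeightedHomogeneous (mw_resb_wt r s i) (![0, 1, 1, 0] i) := by
  unfold mw_resb_lam
  refine IsWeightedHomogeneous.sum _ _ _ fun a _ => ?_
  have h := (mw_resb_wt_X i (Sum.inr (Sum.inr (Sum.inl a)) : mw_Var4 r s)).mul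
    ((mw_resb_wt_X i (Sum.inr (Sum.inl (a, b)) : mw_Var4 r s)).sub
      (mw_resb_wt_X i (Sum.inr (Sum.inl (b, a)) : mw_Var4 r s)))
  fin_cases i <;> simpa [mw_block4] using h

variable (R : MvPolynomial (Fin (s + 1) ⊕ Fin (r + 1)) mw_K) (k a : ℕ)

/-- `R̃` is multi-homogeneous of multidegree `(k, a, a, 0)` -/
theorem mw_resb_Rt_homog (hR : mw_IsBihom R k a) (i : Fin 4) :
    (mw_resb_Rt r s R).IsWeightedHomogeneous (mw_resb_wt r s i) (![k, a, a, 0] i) := by
  obtain ⟨h1, h2⟩ := hR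
  unfold mw_resb_Rt
  fin_cases i
  · refine mw_resb_aeval_homog R _ _ k _ ?_ h1
    rintro (j | b)
    · simpa [mw_block4] using mw_resb_wt_X 0 (Sum.inl j : mw_Var4 r s)
    · simpa using mw_resb_lam_homog (s := s) b 0
  · refine mw_resb_aeval_homog R _ _ a _ ?_ h2
    rintro (j | b)
    · simpa [mw_block4] using mw_resb_wt_X 1 (Sum.inl j : mw_Var4 r s)
    · simpa using mw_resb_lam_homog (s := s) b 1
  · refine mw_resb_aeval_homog R _ _ a _ ?_ h2
    rintro (j | b)
    · simpa [mw_block4] using mw_resb_wt_X 2 (Sum.inl j : mw_Var4 r s)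
    · simpa using mw_resb_lam_homog (s := s) b 2
  · refine mw_resb_aeval_homog R _ _ 0 _ ?_ (mw_resb_homog_zero R)
    rintro (j | b)
    · simpa [mw_block4] using mw_resb_wt_X 3 (Sum.inl j : mw_Var4 r s)
    · simpa using mw_resb_lam_homog (s := s) b 3

/-- the images of the variables under `θ_j` are multi-homogeneous: for the blocks `c`, `U`, `X` of
the same degree as the variable -/
theorem mw_resb_theta_var_homog (j : Fin (s + 1)) (i : Fin 4) (hi : i ≠ 3) (v : mw_Var4 r s) :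
    (mw_resb_theta r s j (X v)).IsWeightedHomogeneous (mw_resb_wt r s i)
      (mw_resb_wt r s i v) := by
  unfold mw_resb_theta
  rw [aeval_X]
  rcases v with l | v
  · simp only [Sum.elim_inl]
    have h1 := (mw_resb_wt_X i (Sum.inr (Sum.inr (Sum.inr j)) : mw_Var4 r s)).mul
      (mw_resb_wt_X i (Sum.inl l : mw_Var4 r s))
    have h2 : (if l = j then mw_resb_ell r s else 0).IsWeightedHomogeneous (mw_resb_wt r s i)
        (![1, 0, 0, 1] i) := by
      split_ifs
      · exact mw_resb_ell_homog i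
      · exact isWeightedHomogeneous_zero _ _ _
    fin_cases i
    · simpa [mw_block4, mw_resb_wt] using h1.sub (by simpa [mw_block4] using h2)
    · simpa [mw_block4, mw_resb_wt] using h1.sub (by simpa [mw_block4] using h2)
    · simpa [mw_block4, mw_resb_wt] using h1.sub (by simpa [mw_block4] using h2)
    · exact absurd rfl hi
  · simp only [Sum.elim_inr]
    exact mw_resb_wt_X i _

/-- for the block `Y`, the image of a variable under `θ_j` has the degree of the variable for the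
weight `wt 0 + wt 3` -/
theorem mw_resb_theta_var_homog3 (j : Fin (s + 1)) (v : mw_Var4 r s) :
    (mw_resb_theta r s j (X v)).IsWeightedHomogeneous (mw_resb_wt r s 3)
      ((mw_resb_wt r s 0 + mw_resb_wt r s 3) v) := by
  unfold mw_resb_theta
  rw [aeval_X]
  rcases v with l | v
  · simp only [Sum.elim_inl]
    have h1 := (mw_resb_wt_X 3 (Sum.inr (Sum.inr (Sum.inr j)) : mw_Var4 r s)).mul
      (mw_resb_wt_X 3 (Sum.inl l : mw_Var4 r s))
    have h2 : (if l = j then mw_resb_ell r s else 0).IsWeightedHomogeneous (mw_resb_wt r s 3)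
        (![1, 0, 0, 1] 3) := by
      split_ifs
      · exact mw_resb_ell_homog 3
      · exact isWeightedHomogeneous_zero _ _ _
    simpa [mw_block4, mw_resb_wt] using h1.sub (by simpa [mw_block4] using h2)
  · simp only [Sum.elim_inr]
    have h := mw_resb_wt_X 3 (Sum.inr v : mw_Var4 r s)
    have h0 : mw_resb_wt r s 0 (Sum.inr v) = 0 := by
      rcases v with p | b | l <;> simp [mw_resb_wt, mw_block4]
    rw [Pi.add_apply, h0, zero_add]
    exact h

/-- `θ_j(R̃)` is multi-homogeneous of multidegree `(k, a, a, k)` -/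
theorem mw_resb_theta_Rt_homog (hR : mw_IsBihom R k a) (j : Fin (s + 1)) (i : Fin 4) :
    (mw_resb_theta r s j (mw_resb_Rt r s R)).IsWeightedHomogeneous (mw_resb_wt r s i)
      (![k, a, a, k] i) := by
  have hθ : ∀ p, mw_resb_theta r s j p = aeval (fun v => mw_resb_theta r s j (X v)) p := by
    intro p
    have : mw_resb_theta r s j = aeval (fun v => mw_resb_theta r s j (X v)) := by
      apply MvPolynomial.algHom_ext
      intro v
      rw [aeval_X]
    rw [← this]
  rw [hθ]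
  by_cases hi : i = 3
  · subst hi
    have h03 := mw_resb_homog_add (mw_resb_Rt_homog R k a hR 0) (mw_resb_Rt_homog R k a hR 3)
    have := mw_resb_aeval_homog (mw_resb_Rt r s R) _ (mw_resb_wt r s 3) _ _
      (mw_resb_theta_var_homog3 j) h03
    simpa using this
  · have := mw_resb_aeval_homog (mw_resb_Rt r s R) _ (mw_resb_wt r s i) _ _
      (mw_resb_theta_var_homog j i hi) (mw_resb_Rt_homog R k a hR i)
    fin_cases i
    · simpa using this
    · simpa using this
    · simpa using this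
    · exact absurd rfl hi

/-- the scaling `c ↦ Y_j c` multiplies a polynomial homogeneous of degree `k` in `c` by `Y_j^k` -/
theorem mw_resb_scl_Rt (hR : mw_IsBihom R k a) (j : Fin (s + 1)) :
    mw_resb_scl r s j (mw_resb_Rt r s R)
      = X (Sum.inr (Sum.inr (Sum.inr j))) ^ k * mw_resb_Rt r s R := by
  have h := mw_resb_scale (mw_resb_Rt r s R) (mw_resb_wt r s 0) k
    (by simpa using mw_resb_Rt_homog R k a hR 0)
    (X (Sum.inr (Sum.inr (Sum.inr j))) : MvPolynomial (mw_Var4 r s) mw_K) X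
  rw [aeval_X_left_apply] at h
  rw [← h]
  unfold mw_resb_scl
  congr 1
  congr 1
  funext v
  rcases v with l | p | b | l <;> simp [mw_resb_wt, mw_block4]

/-- `θ_j ≡ (c ↦ Y_j c)` modulo `ℓ` -/
theorem mw_resb_theta_sub_scl_mem (j : Fin (s + 1)) (p : MvPolynomial (mw_Var4 r s) mw_K) :
    mw_resb_scl r s j p - mw_resb_theta r s j p ∈ Ideal.span {mw_resb_ell r s} := by
  set I : Ideal (MvPolynomial (mw_Var4 r s) mw_K) := Ideal.span {mw_resb_ell r s} with hI
  have hl : mw_resb_ell r s ∈ I := Ideal.subset_span rfl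
  have h : (Ideal.Quotient.mkₐ mw_K I).comp (mw_resb_scl r s j)
      = (Ideal.Quotient.mkₐ mw_K I).comp (mw_resb_theta r s j) := by
    apply MvPolynomial.algHom_ext
    intro v
    simp only [AlgHom.comp_apply, Ideal.Quotient.mkₐ_eq_mk]
    rw [Ideal.Quotient.eq]
    unfold mw_resb_scl mw_resb_theta
    rw [aeval_X, aeval_X]
    rcases v with l | v
    · simp only [Sum.elim_inl, sub_sub_cancel]
      split_ifs
      · exact hl
      · exact I.zero_mem
    · simp only [Sum.elim_inr, sub_self]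
      exact I.zero_mem
  have h2 := congrArg (fun f => f p) h
  simp only [AlgHom.comp_apply, Ideal.Quotient.mkₐ_eq_mk] at h2
  exact Ideal.Quotient.eq.1 h2

theorem mw_resb_ell_ne_zero : mw_resb_ell r s ≠ 0 := by
  intro h
  have h1 : coeff (Finsupp.single (Sum.inl 0 : mw_Var4 r s) 1
      + Finsupp.single (Sum.inr (Sum.inr (Sum.inr 0))) 1) (mw_resb_ell r s) = 1 := by
    unfold mw_resb_ell
    rw [coeff_sum, Finset.sum_eq_single 0]
    · rw [coeff_X_mul, coeff_X]
      simp
    · intro b _ hb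
      rw [coeff_X_mul']
      rw [if_neg]
      intro hmem
      rw [Finsupp.mem_support_iff] at hmem
      apply hmem
      have hne : (Sum.inl 0 : mw_Var4 r s) ≠ Sum.inl b := fun h' => hb (Sum.inl_injective h').symm
      simp [hne]
    · intro h0
      exact absurd (Finset.mem_univ _) h0
  rw [h, coeff_zero] at h1
  exact zero_ne_one h1

/-- **the quotient** `R″_j`: `Y_j^k R̃ = ℓ · R″_j + θ_j(R̃)` with `R″_j` multi-homogeneous of
multidegree `(k-1, a, a, k-1)` -/
theorem mw_resb_exists_quot (hR : mw_IsBihom R k a) :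
    ∃ R2 : Fin (s + 1) → MvPolynomial (mw_Var4 r s) mw_K,
      ∀ j, mw_IsMultiHom (mw_block4 r s) (R2 j) ![k - 1, a, a, k - 1] ∧
        X (Sum.inr (Sum.inr (Sum.inr j))) ^ k * mw_resb_Rt r s R
          = mw_resb_ell r s * R2 j + mw_resb_theta r s j (mw_resb_Rt r s R) := by
  have hex : ∀ j, ∃ Q : MvPolynomial (mw_Var4 r s) mw_K,
      X (Sum.inr (Sum.inr (Sum.inr j))) ^ k * mw_resb_Rt r s R
        - mw_resb_theta r s j (mw_resb_Rt r s R) = mw_resb_ell r s * Q := by
    intro j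
    have h := mw_resb_theta_sub_scl_mem j (mw_resb_Rt r s R)
    rw [mw_resb_scl_Rt R k a hR j, Ideal.mem_span_singleton'] at h
    obtain ⟨Q, hQ⟩ := h
    exact ⟨Q, by rw [← hQ, mul_comm]⟩
  choose R2 hR2 using hex
  refine ⟨R2, fun j => ⟨fun i => ?_, ?_⟩⟩
  · have hD : (X (Sum.inr (Sum.inr (Sum.inr j))) ^ k * mw_resb_Rt r s R
        - mw_resb_theta r s j (mw_resb_Rt r s R)).IsWeightedHomogeneous (mw_resb_wt r s i)
        (![k, a, a, k] i) := by
      refine IsWeightedHomogeneous.sub ?_ (mw_resb_theta_Rt_homog R k a hR j i)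
      have h1 := ((mw_resb_wt_X i (Sum.inr (Sum.inr (Sum.inr j)) : mw_Var4 r s)).pow k).mul
        (mw_resb_Rt_homog R k a hR i)
      fin_cases i <;> simpa [mw_block4] using h1
    have := mw_resb_quot_homog (mw_resb_wt r s i) _ _ _ _ _ (mw_resb_ell_homog i)
      mw_resb_ell_ne_zero hD (hR2 j)
    have hdeg : ![k, a, a, k] i - ![1, 0, 0, 1] i = ![k - 1, a, a, k - 1] i := by
      fin_cases i <;> simp
    rw [hdeg] at this
    exact this
  · rw [← hR2 j]
    ring

end Fermat.Agent.MW
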