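/-
Project MW (S17), local core, leaf [RESb] (helper22), file 3: POLYNOMIALS ON THE CURVE.

* `mw_resb_val_aeval`   values of polynomial expressions at a place;
* `mw_resb_eval_vec_of_rel` / `mw_resb_rel_of_eval_vec`  a bihomogeneous `h(X, Y)` vanishes at
  `(x, y) ∈ F^{r+1} × F^{s+1}` iff it vanishes at all the points `(x(P), y(P))`;
* `mw_resb_zeroMult_finite`  the zero divisor of a section is finite.
Prefix `mw_resb_`.
-/
import Fermat.Agent.MW.Core.RESb.Quot
import Fermat.Agent.MW.Core.Val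
import Fermat.Agent.JT3.Riemann.FBar
import Fermat.Agent.FF.Generic

set_option autoImplicit false
set_option linter.unusedSectionVars false

noncomputable section

namespace Fermat.Agent.MW

open AlgebraicCurve ModularCurve MvPolynomial Fermat.Agent.JT3
open scoped Classical

variable {N : ℕ} [NeZero N]

/-! ### values of polynomial expressions -/

set_option synthInstance.maxHeartbeats 400000 in
/-- the value at `P` of a polynomial expression in functions regular at `P` -/
theorem mw_resb_val_aeval {σ : Type*} (P : mw_X N) (g : σ → mw_F N)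
    (hg : ∀ v, g v ∈ P.toValuationSubring) (h : MvPolynomial σ mw_K) :
    aeval g h ∈ P.toValuationSubring ∧
      mw_val P (aeval g h) = eval (fun v => mw_val P (g v)) h := by
  induction h using MvPolynomial.induction_on with
  | C a =>
    rw [aeval_C, eval_C]
    exact ⟨mw_v_const_mem P a, mw_v_const P a⟩
  | add p q hp hq =>
    rw [map_add (aeval g) p q, map_add (eval _) p q]
    exact ⟨add_mem hp.1 hq.1, by rw [mw_v_add P hp.1 hq.1, hp.2, hq.2]⟩
  | mul_X p v hp =>
    rw [map_mul (aeval g) p (X v), map_mul (eval _) p (X v), aeval_X, eval_X]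
    exact ⟨mul_mem hp.1 (hg v), by rw [mw_v_mul P hp.1 (hg v), hp.2]⟩

section Bihom

variable {r s : ℕ} (x : Fin (r + 1) → mw_F N) (y : Fin (s + 1) → mw_F N)

/-- dehomogenisation of a bihomogeneous polynomial -/
theorem mw_resb_dehom (h : MvPolynomial (Fin (r + 1) ⊕ Fin (s + 1)) mw_K) (d e : ℕ)
    (hh : mw_IsBihom h d e) (p : Fin (r + 1)) (q : Fin (s + 1)) :
    aeval (Sum.elim (fun a => x a / x p) (fun b => y b / y q)) h
      = (x p)⁻¹ ^ d * ((y q)⁻¹ ^ e * aeval (Sum.elim x y) h) := by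
  obtain ⟨h1, h2⟩ := hh
  rw [← mw_resb_scale h _ e h2 (y q)⁻¹ (Sum.elim x y),
    ← mw_resb_scale h _ d h1 (x p)⁻¹]
  congr 1
  congr 1
  funext v
  rcases v with a | b
  · simp [div_eq_inv_mul]
  · simp [div_eq_inv_mul]

/-- a bihomogeneous relation between `x` and `y` vanishes at every point `(x(P), y(P))` -/
theorem mw_resb_eval_vec_of_rel (hx : ∃ b, x b ≠ 0) (hy : ∃ b, y b ≠ 0)
    (h : MvPolynomial (Fin (r + 1) ⊕ Fin (s + 1)) mw_K) (d e : ℕ)
    (hh : mw_IsBihom h d e) (h0 : aeval (Sum.elim x y) h = 0) (P : mw_X N) :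
    eval (Sum.elim (mw_vec x P) (mw_vec y P)) h = 0 := by
  have h1 := mw_resb_dehom x y h d e hh (mw_piv x P) (mw_piv y P)
  rw [h0, mul_zero, mul_zero] at h1
  have h2 := (mw_resb_val_aeval P
    (Sum.elim (fun a => x a / x (mw_piv x P)) (fun b => y b / y (mw_piv y P)))
    (by
      rintro (a | b)
      · exact (mw_v_piv_spec x hx P).2 a
      · exact (mw_v_piv_spec y hy P).2 b) h).2
  rw [h1, mw_v_zero] at h2
  rw [h2]
  have hfun : (fun v => mw_val P (Sum.elim (fun a => x a / x (mw_piv x P))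
      (fun b => y b / y (mw_piv y P)) v)) = Sum.elim (mw_vec x P) (mw_vec y P) := by
    funext v
    rcases v with a | b <;> rfl
  rw [hfun]

theorem mw_resb_ord_support_finite (f : mw_F N) : {P : mw_X N | P.ord f ≠ 0}.Finite :=
  rt_finite_support (rt_isSepGen_jBar N) f

instance mw_resb_infinite_places : Infinite (mw_X N) :=
  Fermat.Agent.FF.ffg_infinite_place (rt_isSepGen_jBar N)

/-- **identity theorem**: a bihomogeneous polynomial vanishing at all the points `(x(P), y(P))` is a
relation between `x` and `y` -/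
theorem mw_resb_rel_of_eval_vec (hx : ∃ b, x b ≠ 0) (hy : ∃ b, y b ≠ 0)
    (h : MvPolynomial (Fin (r + 1) ⊕ Fin (s + 1)) mw_K) (d e : ℕ)
    (hh : mw_IsBihom h d e)
    (h0 : ∀ P : mw_X N, eval (Sum.elim (mw_vec x P) (mw_vec y P)) h = 0) :
    aeval (Sum.elim x y) h = 0 := by
  by_contra hf
  set f := aeval (Sum.elim x y) h with hfdef
  -- a place where nothing happens
  have hfin : ({P : mw_X N | P.ord f ≠ 0} ∪ (⋃ b, {P : mw_X N | P.ord (x b) ≠ 0})
      ∪ (⋃ b, {P : mw_X N | P.ord (y b) ≠ 0})).Finite :=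
    ((mw_resb_ord_support_finite f).union
      (Set.finite_iUnion fun b => mw_resb_ord_support_finite (x b))).union
      (Set.finite_iUnion fun b => mw_resb_ord_support_finite (y b))
  obtain ⟨P, hP⟩ := hfin.exists_notMem
  simp only [Set.mem_union, Set.mem_ofPred_eq, Set.mem_iUnion, not_or, not_exists, not_not] at hP
  obtain ⟨⟨hPf, hPx⟩, hPy⟩ := hP
  obtain ⟨hxp, hxmem⟩ := mw_v_piv_spec x hx P
  obtain ⟨hyq, hymem⟩ := mw_v_piv_spec y hy P
  set g := aeval (Sum.elim (fun a => x a / x (mw_piv x P)) (fun b => y b / y (mw_piv y P))) h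
    with hgdef
  have h1 : g = (x (mw_piv x P))⁻¹ ^ d * ((y (mw_piv y P))⁻¹ ^ e * f) :=
    mw_resb_dehom x y h d e hh (mw_piv x P) (mw_piv y P)
  have hg0 : g ≠ 0 := by
    rw [h1]
    exact mul_ne_zero (pow_ne_zero _ (inv_ne_zero hxp))
      (mul_ne_zero (pow_ne_zero _ (inv_ne_zero hyq)) hf)
  have hgord : P.ord g = 0 := by
    rw [h1, P.ord_mul (pow_ne_zero _ (inv_ne_zero hxp))
      (mul_ne_zero (pow_ne_zero _ (inv_ne_zero hyq)) hf),
      P.ord_mul (pow_ne_zero _ (inv_ne_zero hyq)) hf, hPf, ← zpow_natCast, ← zpow_natCast,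
      P.ord_zpow, P.ord_zpow, P.ord_inv, P.ord_inv, hPx, hPy]
    simp
  have h2 := mw_resb_val_aeval P
    (Sum.elim (fun a => x a / x (mw_piv x P)) (fun b => y b / y (mw_piv y P)))
    (by
      rintro (a | b)
      · exact hxmem a
      · exact hymem b) h
  have h3 : mw_val P g = 0 := by
    have hfun : (fun v => mw_val P (Sum.elim (fun a => x a / x (mw_piv x P))
        (fun b => y b / y (mw_piv y P)) v)) = Sum.elim (mw_vec x P) (mw_vec y P) := by
      funext v
      rcases v with a | b <;> rfl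
    rw [hgdef, h2.2, hfun, h0 P]
  have := (mw_v_eq_zero_iff_ord P hg0 hgord.ge).1 h3
  omega

end Bihom

/-! ### finiteness of the zero divisor of a section -/

theorem mw_resb_zeroMult_finite {s : ℕ} (ψ : Fin (s + 1) → mw_F N) (hψ : ∃ b, ψ b ≠ 0)
    (c : Fin (s + 1) → mw_K) : {z : mw_X N | mw_zeroMult ψ c z ≠ 0}.Finite := by
  by_cases hsec : mw_sec ψ c = 0
  · have : {z : mw_X N | mw_zeroMult ψ c z ≠ 0} = ∅ := by
      ext z
      simp [mw_zeroMult, hsec, Place.ord_zero]
    rw [this]
    exact Set.finite_empty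
  · have hfin : ({P : mw_X N | P.ord (mw_sec ψ c) ≠ 0}
        ∪ (⋃ b, {P : mw_X N | P.ord (ψ b) ≠ 0})).Finite :=
      (mw_resb_ord_support_finite _).union
        (Set.finite_iUnion fun b => mw_resb_ord_support_finite (ψ b))
    refine hfin.subset fun z hz => ?_
    by_contra hnot
    simp only [Set.mem_union, Set.mem_ofPred_eq, Set.mem_iUnion, not_or, not_exists, not_not]
      at hnot
    apply hz
    have hp := (mw_v_piv_spec ψ hψ z).1
    rw [mw_zeroMult, div_eq_mul_inv, z.ord_mul hsec (inv_ne_zero hp), z.ord_inv, hnot.1, hnot.2]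
    simp

end Fermat.Agent.MW
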