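/-
Project MW (S17), local core, leaf [RESb] (helper22), file 4: THE REMAINDER DIES ON THE CURVE.

`θ_j(R̃) = R(Y_j c - ⟨c,Y⟩ e_j, λ_X(U))` vanishes at every `(c, U, x(P), y(P))`: by (B2) for the
hyperplane `u = λ_{x(P)}(U)` through `P`, `R(·, u)` is divisible by `⟨·, y(P)⟩`, which vanishes at
`y_j(P) c - ⟨c, y(P)⟩ e_j`.  Prefix `mw_resb_`.
-/
import Fermat.Agent.MW.Core.RESb.Curve

set_option autoImplicit false
set_option linter.unusedSectionVars false

noncomputable section

namespace Fermat.Agent.MW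

open AlgebraicCurve ModularCurve MvPolynomial Fermat.Agent.JT3
open scoped Classical

variable {N : ℕ} [NeZero N] {r s : ℕ}

/-- the point `(c, U, X, Y)` of `mw_Var4` -/
def mw_resb_pt {A : Type*} (c : Fin (s + 1) → A) (U : Fin (r + 1) × Fin (r + 1) → A)
    (xv : Fin (r + 1) → A) (yv : Fin (s + 1) → A) : mw_Var4 r s → A :=
  Sum.elim c (Sum.elim U (Sum.elim xv yv))

/-- the hyperplane `λ_v(U)` through `v`, with constant coordinates -/
def mw_resb_hyp {A : Type*} [CommRing A] (v : Fin (r + 1) → A)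
    (U : Fin (r + 1) × Fin (r + 1) → A) : Fin (r + 1) → A :=
  fun b => ∑ a, v a * (U (a, b) - U (b, a))

/-- the vector `y_j c - ⟨c, y⟩ e_j` -/
def mw_resb_shift {A : Type*} [CommRing A] (j : Fin (s + 1)) (c yv : Fin (s + 1) → A) :
    Fin (s + 1) → A :=
  fun i => yv j * c i - (if i = j then ∑ l, c l * yv l else 0)

/-- the hyperplane `λ_v(U)` passes through `v` -/
theorem mw_resb_hyp_dot {A : Type*} [CommRing A] (v : Fin (r + 1) → A)
    (U : Fin (r + 1) × Fin (r + 1) → A) : ∑ b, mw_resb_hyp v U b * v b = 0 := by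
  unfold mw_resb_hyp
  have h1 : ∑ b, (∑ a, v a * (U (a, b) - U (b, a))) * v b
      = ∑ b, ∑ a, v a * U (a, b) * v b - ∑ b, ∑ a, v a * U (b, a) * v b := by
    rw [← Finset.sum_sub_distrib]
    refine Finset.sum_congr rfl fun b _ => ?_
    rw [Finset.sum_mul, ← Finset.sum_sub_distrib]
    exact Finset.sum_congr rfl fun a _ => by ring
  rw [h1, Finset.sum_comm (f := fun b a => v a * U (b, a) * v b), sub_eq_zero]
  exact Finset.sum_congr rfl fun b _ => Finset.sum_congr rfl fun a _ => by ring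

/-- the shifted vector is orthogonal to `y` -/
theorem mw_resb_shift_dot {A : Type*} [CommRing A] (j : Fin (s + 1)) (c yv : Fin (s + 1) → A) :
    ∑ i, yv i * mw_resb_shift j c yv i = 0 := by
  unfold mw_resb_shift
  simp only [mul_sub, Finset.sum_sub_distrib, mul_ite, mul_zero, Finset.sum_ite_eq',
    Finset.mem_univ, if_true]
  rw [sub_eq_zero, Finset.mul_sum]
  exact Finset.sum_congr rfl fun i _ => by ring

/-- evaluating `θ_j(R̃)` at a point -/
theorem mw_resb_aeval_theta_Rt {A : Type*} [CommRing A] [Algebra mw_K A]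
    (R : MvPolynomial (Fin (s + 1) ⊕ Fin (r + 1)) mw_K) (j : Fin (s + 1))
    (c : Fin (s + 1) → A) (U : Fin (r + 1) × Fin (r + 1) → A)
    (xv : Fin (r + 1) → A) (yv : Fin (s + 1) → A) :
    aeval (mw_resb_pt c U xv yv) (mw_resb_theta r s j (mw_resb_Rt r s R))
      = aeval (Sum.elim (mw_resb_shift j c yv) (mw_resb_hyp xv U)) R := by
  have h := comp_aeval_apply (f := Sum.elim (fun j => X (Sum.inl j)) (mw_resb_lam r s))
    ((aeval (mw_resb_pt c U xv yv)).comp (mw_resb_theta r s j)) R
  rw [AlgHom.comp_apply] at h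
  unfold mw_resb_Rt
  rw [h]
  congr 1
  congr 1
  funext v
  rcases v with l | b
  · simp only [Sum.elim_inl, AlgHom.comp_apply]
    unfold mw_resb_theta mw_resb_shift mw_resb_ell mw_resb_pt
    rw [aeval_X]
    simp only [Sum.elim_inl, map_sub, map_mul, aeval_X, Sum.elim_inr]
    congr 1
    split_ifs
    · simp only [map_sum, map_mul, aeval_X, Sum.elim_inl, Sum.elim_inr]
    · simp
  · simp only [Sum.elim_inr, AlgHom.comp_apply]
    unfold mw_resb_theta mw_resb_hyp mw_resb_lam mw_resb_pt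
    simp only [map_sum, map_mul, map_sub, aeval_X, Sum.elim_inl, Sum.elim_inr]

/-- evaluating the first block after substituting the second -/
theorem mw_resb_eval_subR {α β : Type} (c : α → mw_K) (u : β → mw_K)
    (p : MvPolynomial (α ⊕ β) mw_K) : eval c (mw_subR u p) = eval (Sum.elim c u) p := by
  unfold mw_subR
  have h := comp_aeval_apply (f := Sum.elim (fun j => X j) (fun b => C (u b)))
    (aeval c : MvPolynomial α mw_K →ₐ[mw_K] mw_K) p
  simp only [aeval_eq_eval] at h
  have h' : eval c (aeval (Sum.elim (fun j => X j) (fun b => C (u b))) p)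
      = aeval (fun i => eval c (Sum.elim (fun j => X j) (fun b => C (u b)) i)) p := h
  rw [h']
  have : (fun i => eval c (Sum.elim (fun j => (X j : MvPolynomial α mw_K))
      (fun b => C (u b)) i)) = Sum.elim c u := by
    funext i
    rcases i with a | b <;> simp
  rw [this]
  rfl

/-- `⟨c, v⟩` as the value of the linear form `mw_lin v` -/
theorem mw_resb_eval_lin {σ : Type} [Fintype σ] (v c : σ → mw_K) :
    eval c (mw_lin v) = ∑ b, v b * c b := by
  unfold mw_lin
  simp only [map_sum, map_mul, eval_C, eval_X]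

/-- a finite product of powers of linear forms over the zero divisor of a section vanishes at `c`
as soon as one factor with positive multiplicity does -/
theorem mw_resb_finprod_eval_zero {t : ℕ} (ψ : Fin (r + 1) → mw_F N) (hψ : ∃ b, ψ b ≠ 0)
    (u : Fin (r + 1) → mw_K) (φ : Fin (t + 1) → mw_F N) (c : Fin (t + 1) → mw_K) (P : mw_X N)
    (hP : mw_zeroMult ψ u P ≠ 0) (hu : 0 ≤ mw_zeroMult ψ u P)
    (hc : eval c (mw_lin (mw_vec φ P)) = 0) :
    eval c (∏ᶠ z : mw_X N, mw_lin (mw_vec φ z) ^ (mw_zeroMult ψ u z).toNat) = 0 := by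
  have hfin := mw_resb_zeroMult_finite ψ hψ u
  have hsub : Function.mulSupport (fun z : mw_X N =>
      mw_lin (mw_vec φ z) ^ (mw_zeroMult ψ u z).toNat) ⊆ ↑hfin.toFinset := by
    intro z hz
    rw [Set.Finite.coe_toFinset]
    intro h0
    apply hz
    show mw_lin (mw_vec φ z) ^ (mw_zeroMult ψ u z).toNat = 1
    rw [h0]
    simp
  rw [finprod_eq_prod_of_mulSupport_subset _ hsub, map_prod]
  refine Finset.prod_eq_zero (i := P) ?_ ?_
  · rw [Set.Finite.mem_toFinset]
    exact hP
  · rw [map_pow, hc]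
    refine zero_pow ?_
    omega

variable (x : Fin (r + 1) → mw_F N) (y : Fin (s + 1) → mw_F N)
  (R : MvPolynomial (Fin (s + 1) ⊕ Fin (r + 1)) mw_K) (k a : ℕ)

/-- **the remainder vanishes at the points of the curve** -/
theorem mw_resb_van (hx : LinearIndependent mw_K x)
    (hR : mw_IsRes N x y R k a) (ha : 1 ≤ a) (P : mw_X N) (j : Fin (s + 1))
    (c₁ : Fin (s + 1) → mw_K) (U₁ : Fin (r + 1) × Fin (r + 1) → mw_K) :
    aeval (mw_resb_pt c₁ U₁ (mw_vec x P) (mw_vec y P))
      (mw_resb_theta r s j (mw_resb_Rt r s R)) = 0 := by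
  rw [mw_resb_aeval_theta_Rt]
  set c' := mw_resb_shift j c₁ (mw_vec y P) with hc'
  set u := mw_resb_hyp (mw_vec x P) U₁ with hu
  show eval (Sum.elim c' u) R = 0
  have hx0 : ∃ b, x b ≠ 0 := mw_v_exists_ne_zero hx
  by_cases hu0 : u = 0
  · have h := mw_resb_scale R _ a hR.1.2 (0 : mw_K) (Sum.elim c' u)
    rw [zero_pow (by omega), zero_mul] at h
    have hfun : (fun v => (0 : mw_K) ^ (Sum.elim (fun _ => 0) (fun _ => 1) :
        Fin (s + 1) ⊕ Fin (r + 1) → ℕ) v * Sum.elim c' u v) = Sum.elim c' u := by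
      funext v
      rcases v with l | b
      · simp
      · simp [hu0]
    rw [hfun] at h
    exact h
  · obtain ⟨B₀, -, hB⟩ := hR.2.2 u hu0
    rw [← mw_resb_eval_subR, hB, map_mul]
    have hsec : mw_sec x u ≠ 0 := mw_v_sec_ne_zero hx hu0
    have hdot : mw_dot u (mw_vec x P) = 0 := by
      rw [mw_dot, hu]
      exact mw_resb_hyp_dot _ _
    have hZ0 : mw_zeroMult x u P ≠ 0 := by
      intro h0
      exact (mw_v_zeroMult_eq_zero_iff x hx0 P hsec).1 h0 hdot
    rw [mw_resb_finprod_eval_zero x hx0 u y c' P hZ0 (mw_v_zeroMult_nonneg x hx0 P hsec), mul_zero]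
    rw [mw_resb_eval_lin, hc']
    exact mw_resb_shift_dot j c₁ (mw_vec y P)

end Fermat.Agent.MW
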