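/-
Project MW (S17), local core, leaf [RESb] (helper22), file 5: THE CERTIFICATE IDENTITY
`mw_IsCert` in `F[c, U]` and its pointwise form in `Q̄[c, U]`.  Prefix `mw_resb_`.
-/
import Fermat.Agent.MW.Core.RESb.Van

set_option autoImplicit false
set_option linter.unusedSectionVars false

noncomputable section

namespace Fermat.Agent.MW

open AlgebraicCurve ModularCurve MvPolynomial Fermat.Agent.JT3
open scoped Classical

variable {N : ℕ} [NeZero N] {r s : ℕ}

/-- specialisation `X ↦ xv`, `Y ↦ yv` (constants of a `Q̄`-algebra `A`), keeping `c`, `U` -/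
def mw_resb_spec {A : Type} [CommRing A] [Algebra mw_K A] (xv : Fin (r + 1) → A)
    (yv : Fin (s + 1) → A) :
    MvPolynomial (mw_Var4 r s) mw_K →ₐ[mw_K]
      MvPolynomial (Fin (s + 1) ⊕ (Fin (r + 1) × Fin (r + 1))) A :=
  aeval (Sum.elim (fun j => X (Sum.inl j))
    (Sum.elim (fun p => X (Sum.inr p)) (Sum.elim (fun b => C (xv b)) (fun j => C (yv j)))))

section Gen

variable {A : Type} [CommRing A] [Algebra mw_K A] (xv : Fin (r + 1) → A) (yv : Fin (s + 1) → A)

theorem mw_resb_spec_Rt (R : MvPolynomial (Fin (s + 1) ⊕ Fin (r + 1)) mw_K) :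
    mw_resb_spec xv yv (mw_resb_Rt r s R)
      = aeval (Sum.elim (fun j => X (Sum.inl j)) (mw_through xv)) R := by
  unfold mw_resb_Rt
  rw [comp_aeval_apply]
  congr 1
  congr 1
  funext v
  rcases v with l | b
  · simp [mw_resb_spec]
  · simp only [Sum.elim_inr]
    unfold mw_resb_lam mw_through mw_resb_spec
    simp only [map_sum, map_mul, map_sub, aeval_X, Sum.elim_inl, Sum.elim_inr]

theorem mw_resb_spec_ell :
    mw_resb_spec xv yv (mw_resb_ell r s) = ∑ i, X (Sum.inl i) * C (yv i) := by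
  unfold mw_resb_ell mw_resb_spec
  simp only [map_sum, map_mul, aeval_X, Sum.elim_inl, Sum.elim_inr]

theorem mw_resb_spec_Y (j : Fin (s + 1)) :
    mw_resb_spec xv yv (X (Sum.inr (Sum.inr (Sum.inr j)))) = C (yv j) := by
  unfold mw_resb_spec
  rw [aeval_X]
  rfl

/-- the specialised polynomial identity -/
theorem mw_resb_spec_id (R : MvPolynomial (Fin (s + 1) ⊕ Fin (r + 1)) mw_K) (k : ℕ)
    (j : Fin (s + 1)) (Q : MvPolynomial (mw_Var4 r s) mw_K)
    (hQ : X (Sum.inr (Sum.inr (Sum.inr j))) ^ k * mw_resb_Rt r s R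
      = mw_resb_ell r s * Q + mw_resb_theta r s j (mw_resb_Rt r s R)) :
    C (yv j) ^ k * aeval (Sum.elim (fun j => X (Sum.inl j)) (mw_through xv)) R
      = (∑ i, X (Sum.inl i) * C (yv i)) * mw_resb_spec xv yv Q
        + mw_resb_spec xv yv (mw_resb_theta r s j (mw_resb_Rt r s R)) := by
  have h := congrArg (mw_resb_spec xv yv) hQ
  rw [map_mul, map_pow, map_add, map_mul, mw_resb_spec_Y, mw_resb_spec_Rt, mw_resb_spec_ell] at h
  exact h

/-- evaluating a specialised polynomial -/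
theorem mw_resb_eval_spec (pt : Fin (s + 1) ⊕ (Fin (r + 1) × Fin (r + 1)) → A)
    (T : MvPolynomial (mw_Var4 r s) mw_K) :
    eval pt (mw_resb_spec xv yv T)
      = aeval (mw_resb_pt (fun i => pt (Sum.inl i)) (fun p => pt (Sum.inr p)) xv yv) T := by
  have h := comp_aeval_apply
    (f := (Sum.elim (fun j => X (Sum.inl j))
      (Sum.elim (fun p => X (Sum.inr p)) (Sum.elim (fun b => C (xv b)) (fun j => C (yv j)))) :
      mw_Var4 r s → MvPolynomial (Fin (s + 1) ⊕ (Fin (r + 1) × Fin (r + 1))) A))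
    ((aeval pt : MvPolynomial (Fin (s + 1) ⊕ (Fin (r + 1) × Fin (r + 1))) A →ₐ[A] A).restrictScalars
      mw_K) T
  have h' : eval pt (mw_resb_spec xv yv T) = _ := h
  rw [h']
  congr 1
  congr 1
  funext v
  rcases v with l | p | b | l <;> simp [mw_resb_pt]

end Gen

variable (x : Fin (r + 1) → mw_F N) (y : Fin (s + 1) → mw_F N)
  (R : MvPolynomial (Fin (s + 1) ⊕ Fin (r + 1)) mw_K) (k a : ℕ)

/-- the remainder vanishes identically at every point of the curve -/
theorem mw_resb_spec_van_pt (hx : LinearIndependent mw_K x) (hR : mw_IsRes N x y R k a)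
    (ha : 1 ≤ a) (P : mw_X N) (j : Fin (s + 1)) :
    mw_resb_spec (mw_vec x P) (mw_vec y P) (mw_resb_theta r s j (mw_resb_Rt r s R)) = 0 := by
  apply MvPolynomial.funext
  intro pt
  rw [mw_resb_eval_spec, map_zero]
  exact mw_resb_van x y R k a hx hR ha P j _ _

/-- the remainder vanishes on the curve (in `F[c, U]`) -/
theorem mw_resb_spec_van (hx : LinearIndependent mw_K x) (hy : ∃ b, y b ≠ 0)
    (hR : mw_IsRes N x y R k a) (ha : 1 ≤ a) (j : Fin (s + 1)) :
    mw_resb_spec x y (mw_resb_theta r s j (mw_resb_Rt r s R)) = 0 := by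
  have hinf : ∀ _ : Fin (s + 1) ⊕ (Fin (r + 1) × Fin (r + 1)),
      (Set.range (algebraMap mw_K (mw_F N))).Infinite :=
    fun _ => Set.infinite_range_of_injective (algebraMap mw_K (mw_F N)).injective
  refine MvPolynomial.funext_set (fun _ => Set.range (algebraMap mw_K (mw_F N))) hinf ?_
  intro pt hpt
  rw [map_zero, mw_resb_eval_spec]
  choose pre hpre using fun i => hpt i (Set.mem_univ i)
  set T := mw_resb_theta r s j (mw_resb_Rt r s R) with hT
  set G : mw_Var4 r s → MvPolynomial (Fin (r + 1) ⊕ Fin (s + 1)) mw_K :=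
    mw_resb_pt (fun i => C (pre (Sum.inl i))) (fun p => C (pre (Sum.inr p)))
      (fun b => X (Sum.inl b)) (fun i => X (Sum.inr i)) with hG
  have h1 : aeval (mw_resb_pt (fun i => pt (Sum.inl i)) (fun p => pt (Sum.inr p)) x y) T
      = aeval (Sum.elim x y) (aeval G T) := by
    rw [comp_aeval_apply]
    congr 1
    congr 1
    funext v
    rcases v with l | p | b | l <;> simp [mw_resb_pt, hG, hpre]
  rw [h1]
  have hx0 : ∃ b, x b ≠ 0 := mw_v_exists_ne_zero hx
  refine mw_resb_rel_of_eval_vec x y hx0 hy (aeval G T) a k ⟨?_, ?_⟩ ?_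
  · refine mw_resb_aeval_homog T (mw_resb_wt r s 2) _ a G ?_
      (by simpa using mw_resb_theta_Rt_homog R k a hR.1 j 2)
    intro v
    rcases v with l | p | b | l
    · simpa [mw_resb_wt, mw_block4, hG, mw_resb_pt] using
        isWeightedHomogeneous_C (R := mw_K) (Sum.elim (fun _ => 1) (fun _ => 0) :
          Fin (r + 1) ⊕ Fin (s + 1) → ℕ) (pre (Sum.inl l))
    · simpa [mw_resb_wt, mw_block4, hG, mw_resb_pt] using
        isWeightedHomogeneous_C (R := mw_K) (Sum.elim (fun _ => 1) (fun _ => 0) :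
          Fin (r + 1) ⊕ Fin (s + 1) → ℕ) (pre (Sum.inr p))
    · simpa [mw_resb_wt, mw_block4, hG, mw_resb_pt] using
        isWeightedHomogeneous_X mw_K (Sum.elim (fun _ => 1) (fun _ => 0) :
          Fin (r + 1) ⊕ Fin (s + 1) → ℕ) (Sum.inl b)
    · simpa [mw_resb_wt, mw_block4, hG, mw_resb_pt] using
        isWeightedHomogeneous_X mw_K (Sum.elim (fun _ => 1) (fun _ => 0) :
          Fin (r + 1) ⊕ Fin (s + 1) → ℕ) (Sum.inr l)
  · refine mw_resb_aeval_homog T (mw_resb_wt r s 3) _ k G ?_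
      (by simpa using mw_resb_theta_Rt_homog R k a hR.1 j 3)
    intro v
    rcases v with l | p | b | l
    · simpa [mw_resb_wt, mw_block4, hG, mw_resb_pt] using
        isWeightedHomogeneous_C (R := mw_K) (Sum.elim (fun _ => 0) (fun _ => 1) :
          Fin (r + 1) ⊕ Fin (s + 1) → ℕ) (pre (Sum.inl l))
    · simpa [mw_resb_wt, mw_block4, hG, mw_resb_pt] using
        isWeightedHomogeneous_C (R := mw_K) (Sum.elim (fun _ => 0) (fun _ => 1) :
          Fin (r + 1) ⊕ Fin (s + 1) → ℕ) (pre (Sum.inr p))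
    · simpa [mw_resb_wt, mw_block4, hG, mw_resb_pt] using
        isWeightedHomogeneous_X mw_K (Sum.elim (fun _ => 0) (fun _ => 1) :
          Fin (r + 1) ⊕ Fin (s + 1) → ℕ) (Sum.inl b)
    · simpa [mw_resb_wt, mw_block4, hG, mw_resb_pt] using
        isWeightedHomogeneous_X mw_K (Sum.elim (fun _ => 0) (fun _ => 1) :
          Fin (r + 1) ⊕ Fin (s + 1) → ℕ) (Sum.inr l)
  · intro P
    have h2 : eval (Sum.elim (mw_vec x P) (mw_vec y P)) (aeval G T)
        = aeval (fun v => eval (Sum.elim (mw_vec x P) (mw_vec y P)) (G v)) T :=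
      comp_aeval_apply (f := G) (aeval (Sum.elim (mw_vec x P) (mw_vec y P)) :
        MvPolynomial (Fin (r + 1) ⊕ Fin (s + 1)) mw_K →ₐ[mw_K] mw_K) T
    rw [h2]
    have h3 : (fun v => eval (Sum.elim (mw_vec x P) (mw_vec y P)) (G v))
        = mw_resb_pt (fun i => pre (Sum.inl i)) (fun p => pre (Sum.inr p))
          (mw_vec x P) (mw_vec y P) := by
      funext v
      rcases v with l | p | b | l <;> simp [mw_resb_pt, hG]
    rw [h3]
    exact mw_resb_van x y R k a hx hR ha P j _ _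

/-- **the certificate identity** -/
theorem mw_resb_isCert (hx : LinearIndependent mw_K x) (hy : ∃ b, y b ≠ 0)
    (hR : mw_IsRes N x y R k a) (ha : 1 ≤ a)
    (R2 : Fin (s + 1) → MvPolynomial (mw_Var4 r s) mw_K)
    (hR2 : ∀ j, mw_IsMultiHom (mw_block4 r s) (R2 j) ![k - 1, a, a, k - 1] ∧
        X (Sum.inr (Sum.inr (Sum.inr j))) ^ k * mw_resb_Rt r s R
          = mw_resb_ell r s * R2 j + mw_resb_theta r s j (mw_resb_Rt r s R)) :
    mw_IsCert N x y R k a R2 := by
  intro j
  refine ⟨(hR2 j).1, ?_⟩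
  have h := mw_resb_spec_id x y R k j (R2 j) (hR2 j).2
  rw [mw_resb_spec_van x y R k a hx hy hR ha j, add_zero] at h
  exact h

/-- **the certificate identity at a point** -/
theorem mw_resb_point_id (hx : LinearIndependent mw_K x)
    (hR : mw_IsRes N x y R k a) (ha : 1 ≤ a)
    (R2 : Fin (s + 1) → MvPolynomial (mw_Var4 r s) mw_K)
    (hR2 : ∀ j, mw_IsMultiHom (mw_block4 r s) (R2 j) ![k - 1, a, a, k - 1] ∧
        X (Sum.inr (Sum.inr (Sum.inr j))) ^ k * mw_resb_Rt r s R
          = mw_resb_ell r s * R2 j + mw_resb_theta r s j (mw_resb_Rt r s R))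
    (P : mw_X N) (j : Fin (s + 1)) :
    C (mw_vec y P j) ^ k
        * aeval (Sum.elim (fun j => X (Sum.inl j)) (mw_through (mw_vec x P))) R
      = (∑ i, X (Sum.inl i) * C (mw_vec y P i))
        * mw_resb_spec (mw_vec x P) (mw_vec y P) (R2 j) := by
  have h := mw_resb_spec_id (mw_vec x P) (mw_vec y P) R k j (R2 j) (hR2 j).2
  rw [mw_resb_spec_van_pt x y R k a hx hR ha P j, add_zero] at h
  exact h

end Fermat.Agent.MW
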