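/-
Project MW (S17), local core, leaf [RESb] (helper22), file 7: NO COMMON ZERO.

At a point `P₀` and `c₀ ≠ 0`: for the transversal hyperplane `u₀ = λ_{x(P₀)}(U₀)` of `Hyp.lean`
(missing the other zeros of `G_{c₀}`), the point identity and (B2) give
`R″_j(c, U₀, x(P₀), y(P₀)) = B₀ ∏_{z ≠ P₀} ⟨c, y(z)⟩^{Z_{u₀}(z)}` (`j` the pivot of `y` at `P₀`),
which does not vanish at `c₀`.  Also `1 ≤ k`.  Prefix `mw_resb_`.
-/
import Fermat.Agent.MW.Core.RESb.Cert
import Fermat.Agent.MW.Core.RESb.Hyp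

set_option autoImplicit false
set_option linter.unusedSectionVars false

noncomputable section

namespace Fermat.Agent.MW

open AlgebraicCurve ModularCurve MvPolynomial Fermat.Agent.JT3
open scoped Classical

variable {N : ℕ} [NeZero N] {r s : ℕ}
variable (x : Fin (r + 1) → mw_F N) (y : Fin (s + 1) → mw_F N)
  (R : MvPolynomial (Fin (s + 1) ⊕ Fin (r + 1)) mw_K) (k a : ℕ)

/-- the linear form `∑ X_i C(v_i)` is `mw_lin v` -/
theorem mw_resb_sum_X_C {σ : Type} [Fintype σ] (v : σ → mw_K) :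
    (∑ i, (X i : MvPolynomial σ mw_K) * C (v i)) = mw_lin v := by
  unfold mw_lin
  exact Finset.sum_congr rfl fun i _ => mul_comm _ _

/-- **factorisation**: substituting `U ↦ U₀` in the point identity at `P₀` for the pivot `j` of `y` -/
theorem mw_resb_fact (hx : LinearIndependent mw_K x) (hy : ∃ b, y b ≠ 0)
    (hR : mw_IsRes N x y R k a) (ha : 1 ≤ a)
    (R2 : Fin (s + 1) → MvPolynomial (mw_Var4 r s) mw_K)
    (hR2 : ∀ j, mw_IsMultiHom (mw_block4 r s) (R2 j) ![k - 1, a, a, k - 1] ∧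
        X (Sum.inr (Sum.inr (Sum.inr j))) ^ k * mw_resb_Rt r s R
          = mw_resb_ell r s * R2 j + mw_resb_theta r s j (mw_resb_Rt r s R))
    (P₀ : mw_X N) (U₀ : Fin (r + 1) × Fin (r + 1) → mw_K) :
    mw_subR (mw_resb_hyp (mw_vec x P₀) U₀) R
      = mw_lin (mw_vec y P₀)
        * mw_subR U₀ (mw_resb_spec (mw_vec x P₀) (mw_vec y P₀) (R2 (mw_piv y P₀))) := by
  have h := congrArg (mw_subR U₀) (mw_resb_point_id x y R k a hx hR ha R2 hR2 P₀ (mw_piv y P₀))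
  rw [mw_v_vec_piv y hy P₀, C_1, one_pow, one_mul, map_mul] at h
  have h1 : mw_subR U₀ (aeval (Sum.elim (fun j => X (Sum.inl j)) (mw_through (mw_vec x P₀))) R)
      = mw_subR (mw_resb_hyp (mw_vec x P₀) U₀) R := by
    unfold mw_subR
    rw [comp_aeval_apply]
    congr 1
    congr 1
    funext v
    rcases v with l | b
    · simp
    · simp only [Sum.elim_inr]
      unfold mw_through mw_resb_hyp
      simp only [map_sum, map_mul, map_sub, aeval_X, aeval_C, Sum.elim_inr, algebraMap_eq]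
  have h2 : mw_subR U₀ (∑ i, X (Sum.inl i) * C (mw_vec y P₀ i)) = mw_lin (mw_vec y P₀) := by
    rw [← mw_resb_sum_X_C]
    unfold mw_subR
    simp only [map_sum, map_mul, aeval_X, aeval_C, Sum.elim_inl, algebraMap_eq]
  rw [h1, h2] at h
  exact h

/-- the value of `R″_j` at `(c₀, U₀, xv, yv)` through the substitution `U ↦ U₀` -/
theorem mw_resb_eval_subR_spec (xv : Fin (r + 1) → mw_K) (yv : Fin (s + 1) → mw_K)
    (c₀ : Fin (s + 1) → mw_K) (U₀ : Fin (r + 1) × Fin (r + 1) → mw_K)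
    (Q : MvPolynomial (mw_Var4 r s) mw_K) :
    eval c₀ (mw_subR U₀ (mw_resb_spec xv yv Q)) = aeval (mw_resb_pt c₀ U₀ xv yv) Q := by
  rw [mw_resb_eval_subR, mw_resb_eval_spec]
  rfl

theorem mw_resb_zeroMult_zero (P : mw_X N) : mw_zeroMult x (0 : Fin (r + 1) → mw_K) P = 0 := by
  simp [mw_zeroMult, mw_sec, Place.ord_zero]

/-- the factors of (B2) have finite multiplicative support -/
theorem mw_resb_mulSupport_finite (hx0 : ∃ b, x b ≠ 0) (u : Fin (r + 1) → mw_K) :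
    (Function.mulSupport fun z : mw_X N =>
      mw_lin (mw_vec y z) ^ (mw_zeroMult x u z).toNat).Finite := by
  refine (mw_resb_zeroMult_finite x hx0 u).subset fun z hz => ?_
  intro h0
  apply hz
  show mw_lin (mw_vec y z) ^ (mw_zeroMult x u z).toNat = 1
  rw [h0]
  simp

/-- **no common zero** -/
theorem mw_resb_nozero (hEMB : mw_SeamEMB N) (hxref : mw_IsRef N x)
    (hy : LinearIndependent mw_K y) (hR : mw_IsRes N x y R k a) (ha : 1 ≤ a)
    (R2 : Fin (s + 1) → MvPolynomial (mw_Var4 r s) mw_K)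
    (hR2 : ∀ j, mw_IsMultiHom (mw_block4 r s) (R2 j) ![k - 1, a, a, k - 1] ∧
        X (Sum.inr (Sum.inr (Sum.inr j))) ^ k * mw_resb_Rt r s R
          = mw_resb_ell r s * R2 j + mw_resb_theta r s j (mw_resb_Rt r s R))
    (c₀ : Fin (s + 1) → mw_K) (hc₀ : c₀ ≠ 0) (P₀ : mw_X N) :
    ∃ U₀ : Fin (r + 1) × Fin (r + 1) → mw_K,
      aeval (mw_resb_pt c₀ U₀ (mw_vec x P₀) (mw_vec y P₀)) (R2 (mw_piv y P₀)) ≠ 0 := by
  have hx : LinearIndependent mw_K x := hxref.2.1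
  have hx0 : ∃ b, x b ≠ 0 := mw_v_exists_ne_zero hx
  have hy0 : ∃ b, y b ≠ 0 := mw_v_exists_ne_zero hy
  have hfin := mw_resb_zeroMult_finite y hy0 c₀
  set T : Finset (mw_X N) := hfin.toFinset.erase P₀ with hTdef
  have hT : P₀ ∉ T := Finset.notMem_erase _ _
  obtain ⟨u₀, hu1, hu2, hu3⟩ := mw_resb_exists_hyp hEMB x hxref P₀ T hT
  have hu₀ : u₀ ≠ 0 := by
    rintro rfl
    rw [mw_resb_zeroMult_zero] at hu2
    exact zero_ne_one hu2
  set U₀ : Fin (r + 1) × Fin (r + 1) → mw_K :=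
    fun q => if q.1 = mw_piv x P₀ then u₀ q.2 else 0 with hU₀def
  have hU₀ : mw_resb_hyp (mw_vec x P₀) U₀ = u₀ :=
    mw_resb_hyp_surj (mw_vec x P₀) (mw_piv x P₀) (mw_v_vec_piv x hx0 P₀) u₀ hu1
  refine ⟨U₀, ?_⟩
  set Q₀ := mw_subR U₀ (mw_resb_spec (mw_vec x P₀) (mw_vec y P₀) (R2 (mw_piv y P₀))) with hQ₀
  have hfact : mw_subR u₀ R = mw_lin (mw_vec y P₀) * Q₀ := by
    have := mw_resb_fact x y R k a hx hy0 hR ha R2 hR2 P₀ U₀
    rwa [hU₀] at this
  obtain ⟨B₀, hB₀, hB⟩ := hR.2.2 u₀ hu₀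
  set f : mw_X N → MvPolynomial (Fin (s + 1)) mw_K :=
    fun z => mw_lin (mw_vec y z) ^ (mw_zeroMult x u₀ z).toNat with hf
  have hfinf : (Function.mulSupport f).Finite := mw_resb_mulSupport_finite x y hx0 u₀
  have hsplit : ∏ᶠ z, f z = f P₀ * ∏ᶠ (z) (_ : z ≠ P₀), f z := (mul_finprod_cond_ne P₀ hfinf).symm
  have hfP : f P₀ = mw_lin (mw_vec y P₀) := by
    simp only [hf]
    rw [hu2]
    simp
  have hlin0 : mw_lin (mw_vec y P₀) ≠ 0 := mw_resa_lin_ne_zero (mw_v_vec_ne_zero y hy0 P₀)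
  have hQ : Q₀ = C B₀ * ∏ᶠ (z) (_ : z ≠ P₀), f z := by
    have h1 : mw_lin (mw_vec y P₀) * Q₀
        = mw_lin (mw_vec y P₀) * (C B₀ * ∏ᶠ (z) (_ : z ≠ P₀), f z) := by
      rw [← hfact, hB]
      show C B₀ * ∏ᶠ z, f z = _
      rw [hsplit, hfP]
      ring
    exact mul_left_cancel₀ hlin0 h1
  rw [← mw_resb_eval_subR_spec, ← hQ₀, hQ, map_mul, eval_C, finprod_cond_ne f P₀ hfinf, map_prod]
  refine mul_ne_zero hB₀ (Finset.prod_ne_zero_iff.2 fun z hz => ?_)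
  rw [Finset.mem_erase, Set.Finite.mem_toFinset] at hz
  obtain ⟨hzP, hzsupp⟩ := hz
  have hsecx : mw_sec x u₀ ≠ 0 := mw_v_sec_ne_zero hx hu₀
  have hsecy : mw_sec y c₀ ≠ 0 := mw_v_sec_ne_zero hy hc₀
  have hZ : mw_zeroMult x u₀ z ≠ 0 := by
    intro h0
    apply hzsupp
    show mw_lin (mw_vec y z) ^ (mw_zeroMult x u₀ z).toNat = 1
    rw [h0]
    simp
  have hdot : mw_dot u₀ (mw_vec x z) = 0 := by
    by_contra hne
    exact hZ ((mw_v_zeroMult_eq_zero_iff x hx0 z hsecx).2 hne)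
  have hzT : z ∉ T := fun hzT => hu3 z hzT hdot
  have hZy : mw_zeroMult y c₀ z = 0 := by
    by_contra hne
    apply hzT
    rw [hTdef, Finset.mem_erase, Set.Finite.mem_toFinset]
    exact ⟨hzP, hne⟩
  have hdoty : mw_dot c₀ (mw_vec y z) ≠ 0 := (mw_v_zeroMult_eq_zero_iff y hy0 z hsecy).1 hZy
  simp only [hf]
  rw [map_pow, mw_resb_eval_lin]
  refine pow_ne_zero _ ?_
  intro h0
  apply hdoty
  rw [mw_dot, ← h0]
  exact Finset.sum_congr rfl fun b _ => mul_comm _ _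

/-- the degree `k` of the resultant in `c` is positive -/
theorem mw_resb_k_pos (hEMB : mw_SeamEMB N) (hxref : mw_IsRef N x)
    (hy : LinearIndependent mw_K y) (hR : mw_IsRes N x y R k a) (ha : 1 ≤ a) : 1 ≤ k := by
  by_contra hk
  have hk0 : k = 0 := by omega
  have hx : LinearIndependent mw_K x := hxref.2.1
  have hx0 : ∃ b, x b ≠ 0 := mw_v_exists_ne_zero hx
  have hy0 : ∃ b, y b ≠ 0 := mw_v_exists_ne_zero hy
  obtain ⟨R2, hR2⟩ := mw_resb_exists_quot R k a hR.1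
  obtain ⟨P₀⟩ : Nonempty (mw_X N) := inferInstance
  obtain ⟨u₀, hu1, hu2, -⟩ := mw_resb_exists_hyp hEMB x hxref P₀ ∅ (Finset.notMem_empty _)
  have hu₀ : u₀ ≠ 0 := by
    rintro rfl
    rw [mw_resb_zeroMult_zero] at hu2
    exact zero_ne_one hu2
  set U₀ : Fin (r + 1) × Fin (r + 1) → mw_K :=
    fun q => if q.1 = mw_piv x P₀ then u₀ q.2 else 0 with hU₀def
  have hU₀ : mw_resb_hyp (mw_vec x P₀) U₀ = u₀ :=
    mw_resb_hyp_surj (mw_vec x P₀) (mw_piv x P₀) (mw_v_vec_piv x hx0 P₀) u₀ hu1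
  have hfact := mw_resb_fact x y R k a hx hy0 hR ha R2 hR2 P₀ U₀
  rw [hU₀] at hfact
  obtain ⟨B₀, hB₀, hB⟩ := hR.2.2 u₀ hu₀
  have hne : mw_subR u₀ R ≠ 0 := by
    rw [hB]
    refine mul_ne_zero (by rwa [ne_eq, C_eq_zero]) (finprod_ne_zero fun z => pow_ne_zero _ ?_)
    exact mw_resa_lin_ne_zero (mw_v_vec_ne_zero y hy0 z)
  have hhom : (mw_subR u₀ R).IsWeightedHomogeneous (fun _ => 1 : Fin (s + 1) → ℕ) k := by
    unfold mw_subR
    refine mw_resb_aeval_homog R _ _ k _ ?_ hR.1.1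
    rintro (j | b)
    · exact isWeightedHomogeneous_X mw_K _ j
    · exact isWeightedHomogeneous_C _ _
  apply hne
  apply MvPolynomial.funext
  intro c
  have h1 := mw_resb_scale (mw_subR u₀ R) _ k hhom (0 : mw_K) c
  rw [hk0, pow_zero, one_mul] at h1
  simp only [pow_one, zero_mul, aeval_eq_eval] at h1
  rw [map_zero, ← h1, hfact, map_mul, mw_resb_eval_lin]
  simp

end Fermat.Agent.MW
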