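/-
Project MW (S17), local core, leaf [RESb] (helper22), file 8: THE `U`-COEFFICIENTS OF `R″_j` as
polynomials in `(c, X, Y)` (three blocks), their multi-homogeneity, their values, the relations of
the curve as a set of multi-homogeneous polynomials, block norms.  Prefix `mw_resb_`.
-/
import Fermat.Agent.MW.Core.RESb.NoZero
import Fermat.Agent.MW.Core.LocalAux

set_option autoImplicit false
set_option linter.unusedSectionVars false

noncomputable section

namespace Fermat.Agent.MW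

open AlgebraicCurve ModularCurve MvPolynomial Fermat.Agent.JT3
open scoped Classical

/-- the variables `(c, X, Y)` -/
abbrev mw_resb_Var3 (r s : ℕ) : Type := Fin (s + 1) ⊕ (Fin (r + 1) ⊕ Fin (s + 1))

/-- the blocks of `mw_resb_Var3`: `c ↦ 0`, `X ↦ 1`, `Y ↦ 2` -/
def mw_resb_block3 (r s : ℕ) : mw_resb_Var3 r s → Fin 3 :=
  Sum.elim (fun _ => 0) (Sum.elim (fun _ => 1) (fun _ => 2))

/-- `mw_Var4 → (c, X, Y) ⊕ U` -/
def mw_resb_E (r s : ℕ) : mw_Var4 r s → mw_resb_Var3 r s ⊕ (Fin (r + 1) × Fin (r + 1)) :=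
  Sum.elim (fun i => Sum.inl (Sum.inl i))
    (Sum.elim (fun p => Sum.inr p)
      (Sum.elim (fun b => Sum.inl (Sum.inr (Sum.inl b))) (fun i => Sum.inl (Sum.inr (Sum.inr i)))))

variable {r s : ℕ}

/-- `Q` as a polynomial in `U` with coefficients in `Q̄[c, X, Y]` -/
def mw_resb_Phi (Q : MvPolynomial (mw_Var4 r s) mw_K) :
    MvPolynomial (Fin (r + 1) × Fin (r + 1)) (MvPolynomial (mw_resb_Var3 r s) mw_K) :=
  mw_resa_iter (rename (mw_resb_E r s) Q)

/-- the point `(c, X, Y)` -/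
def mw_resb_pt3 (cc : Fin (s + 1) → mw_K) (xv : Fin (r + 1) → mw_K) (yv : Fin (s + 1) → mw_K) :
    mw_resb_Var3 r s → mw_K :=
  Sum.elim cc (Sum.elim xv yv)

/-- the coefficients of `R″(cc, ·, xv, yv)` are the values of the coefficients of `Φ` -/
theorem mw_resb_coeff_quotVal (cc : Fin (s + 1) → mw_K) (xv : Fin (r + 1) → mw_K)
    (yv : Fin (s + 1) → mw_K) (Q : MvPolynomial (mw_Var4 r s) mw_K)
    (β : Fin (r + 1) × Fin (r + 1) →₀ ℕ) :
    coeff β (mw_quotVal cc xv yv Q) = eval (mw_resb_pt3 cc xv yv) (coeff β (mw_resb_Phi Q)) := by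
  unfold mw_resb_Phi
  rw [← mw_resb_coeff_eval, aeval_rename]
  unfold mw_quotVal
  congr 2
  congr 1
  funext v
  rcases v with l | p | b | l <;> simp [mw_resb_E, mw_resb_pt3]

/-- multi-homogeneity of the coefficients -/
theorem mw_resb_Phi_coeff_homog (Q : MvPolynomial (mw_Var4 r s) mw_K) (k a : ℕ)
    (hQ : mw_IsMultiHom (mw_block4 r s) Q ![k - 1, a, a, k - 1])
    (β : Fin (r + 1) × Fin (r + 1) →₀ ℕ) :
    mw_IsMultiHom (mw_resb_block3 r s) (coeff β (mw_resb_Phi Q)) ![k - 1, a, k - 1] := by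
  intro j'
  unfold mw_resb_Phi
  refine mw_resb_coeff_homog _ _ _ ?_ β
  rw [rename_eq_aeval] 
  fin_cases j'
  · refine mw_resb_aeval_homog Q _ _ _ _ ?_ (hQ 0)
    intro v
    have h := isWeightedHomogeneous_X mw_K (Sum.elim (fun i => if mw_resb_block3 r s i = 0 then 1 else 0)
      (fun _ => 0) : mw_resb_Var3 r s ⊕ (Fin (r + 1) × Fin (r + 1)) → ℕ) (mw_resb_E r s v)
    rcases v with l | p | b | l <;> simpa [mw_resb_E, mw_resb_block3, mw_block4] using h
  · refine mw_resb_aeval_homog Q _ _ _ _ ?_ (hQ 2)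
    intro v
    have h := isWeightedHomogeneous_X mw_K (Sum.elim (fun i => if mw_resb_block3 r s i = 1 then 1 else 0)
      (fun _ => 0) : mw_resb_Var3 r s ⊕ (Fin (r + 1) × Fin (r + 1)) → ℕ) (mw_resb_E r s v)
    rcases v with l | p | b | l <;> simpa [mw_resb_E, mw_resb_block3, mw_block4] using h
  · refine mw_resb_aeval_homog Q _ _ _ _ ?_ (hQ 3)
    intro v
    have h := isWeightedHomogeneous_X mw_K (Sum.elim (fun i => if mw_resb_block3 r s i = 2 then 1 else 0)
      (fun _ => 0) : mw_resb_Var3 r s ⊕ (Fin (r + 1) × Fin (r + 1)) → ℕ) (mw_resb_E r s v)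
    rcases v with l | p | b | l <;> simpa [mw_resb_E, mw_resb_block3, mw_block4] using h

/-- evaluating `R″(cc, ·, xv, yv)` at `U₀` -/
theorem mw_resb_eval_quotVal (cc : Fin (s + 1) → mw_K) (xv : Fin (r + 1) → mw_K)
    (yv : Fin (s + 1) → mw_K) (U₀ : Fin (r + 1) × Fin (r + 1) → mw_K)
    (Q : MvPolynomial (mw_Var4 r s) mw_K) :
    eval U₀ (mw_quotVal cc xv yv Q) = aeval (mw_resb_pt cc U₀ xv yv) Q := by
  unfold mw_quotVal
  have h := comp_aeval_apply
    (f := (Sum.elim (fun j => C (cc j))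
      (Sum.elim (fun p => X p) (Sum.elim (fun b => C (xv b)) (fun j => C (yv j)))) :
      mw_Var4 r s → MvPolynomial (Fin (r + 1) × Fin (r + 1)) mw_K))
    (aeval U₀ : MvPolynomial (Fin (r + 1) × Fin (r + 1)) mw_K →ₐ[mw_K] mw_K) Q
  have h' : eval U₀ (aeval (Sum.elim (fun j => C (cc j))
      (Sum.elim (fun p => X p) (Sum.elim (fun b => C (xv b)) (fun j => C (yv j))))) Q) = _ := h
  rw [h']
  congr 1
  congr 1
  funext v
  rcases v with l | p | b | l <;> simp [mw_resb_pt]

/-- `R″(cc, ·, xv, yv)` is the specialisation `c ↦ cc` of `mw_resb_spec xv yv` -/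
theorem mw_resb_subL_spec (cc : Fin (s + 1) → mw_K) (xv : Fin (r + 1) → mw_K)
    (yv : Fin (s + 1) → mw_K) (Q : MvPolynomial (mw_Var4 r s) mw_K) :
    mw_subL cc (mw_resb_spec xv yv Q) = mw_quotVal cc xv yv Q := by
  unfold mw_subL mw_resb_spec mw_quotVal
  rw [comp_aeval_apply]
  congr 1
  congr 1
  funext v
  rcases v with l | p | b | l <;> simp

variable {N : ℕ} [NeZero N]
variable (x : Fin (r + 1) → mw_F N) (y : Fin (s + 1) → mw_F N)
  (R : MvPolynomial (Fin (s + 1) ⊕ Fin (r + 1)) mw_K) (k a : ℕ)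

/-- **the relation between the `R″_j` at a point**: `y_l(P)^k R″_j = y_j(P)^k R″_l` -/
theorem mw_resb_quotVal_rel (hx : LinearIndependent mw_K x) (hy : ∃ b, y b ≠ 0)
    (hR : mw_IsRes N x y R k a) (ha : 1 ≤ a)
    (R2 : Fin (s + 1) → MvPolynomial (mw_Var4 r s) mw_K)
    (hR2 : ∀ j, mw_IsMultiHom (mw_block4 r s) (R2 j) ![k - 1, a, a, k - 1] ∧
        X (Sum.inr (Sum.inr (Sum.inr j))) ^ k * mw_resb_Rt r s R
          = mw_resb_ell r s * R2 j + mw_resb_theta r s j (mw_resb_Rt r s R))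
    (P : mw_X N) (cc : Fin (s + 1) → mw_K) (j l : Fin (s + 1)) :
    C (mw_vec y P l ^ k) * mw_quotVal cc (mw_vec x P) (mw_vec y P) (R2 j)
      = C (mw_vec y P j ^ k) * mw_quotVal cc (mw_vec x P) (mw_vec y P) (R2 l) := by
  have hj := mw_resb_point_id x y R k a hx hR ha R2 hR2 P j
  have hl := mw_resb_point_id x y R k a hx hR ha R2 hR2 P l
  set L : MvPolynomial (Fin (s + 1) ⊕ (Fin (r + 1) × Fin (r + 1))) mw_K :=
    ∑ i, X (Sum.inl i) * C (mw_vec y P i) with hL
  have hL0 : L ≠ 0 := by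
    intro h0
    have h2 : mw_subR (fun _ => (0 : mw_K)) L = mw_lin (mw_vec y P) := by
      rw [← mw_resb_sum_X_C, hL]
      unfold mw_subR
      simp only [map_sum, map_mul, aeval_X, aeval_C, Sum.elim_inl, algebraMap_eq]
    rw [h0, map_zero] at h2
    exact mw_resa_lin_ne_zero (mw_v_vec_ne_zero y hy P) h2.symm
  have hrel : C (mw_vec y P l) ^ k * mw_resb_spec (mw_vec x P) (mw_vec y P) (R2 j)
      = C (mw_vec y P j) ^ k * mw_resb_spec (mw_vec x P) (mw_vec y P) (R2 l) := by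
    apply mul_left_cancel₀ hL0
    calc L * (C (mw_vec y P l) ^ k * mw_resb_spec (mw_vec x P) (mw_vec y P) (R2 j))
        = C (mw_vec y P l) ^ k * (L * mw_resb_spec (mw_vec x P) (mw_vec y P) (R2 j)) := by ring
      _ = C (mw_vec y P j) ^ k * (L * mw_resb_spec (mw_vec x P) (mw_vec y P) (R2 l)) := by
          rw [← hj, ← hl]; ring
      _ = L * (C (mw_vec y P j) ^ k * mw_resb_spec (mw_vec x P) (mw_vec y P) (R2 l)) := by ring
  have h := congrArg (mw_subL cc) hrel
  rw [map_mul, map_mul, map_pow, map_pow, mw_resb_subL_spec, mw_resb_subL_spec] at h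
  have hC : ∀ t : mw_K, mw_subL (β := Fin (r + 1) × Fin (r + 1)) cc
      (C t : MvPolynomial (Fin (s + 1) ⊕ (Fin (r + 1) × Fin (r + 1))) mw_K) = C t := by
    intro t
    unfold mw_subL
    rw [aeval_C]
    rfl
  rw [hC, hC, ← C_pow, ← C_pow] at h
  exact h

/-! ### the relations of the curve -/

/-- the bihomogeneous relations between `x` and `y`, as polynomials in `(c, X, Y)` -/
def mw_resb_Gen : Set (MvPolynomial (mw_resb_Var3 r s) mw_K) :=
  {p | ∃ (h : MvPolynomial (Fin (r + 1) ⊕ Fin (s + 1)) mw_K) (d e : ℕ), mw_IsBihom h d e ∧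
    aeval (Sum.elim x y) h = 0 ∧ p = rename Sum.inr h}

theorem mw_resb_Gen_homog (p : MvPolynomial (mw_resb_Var3 r s) mw_K) (hp : p ∈ mw_resb_Gen x y) :
    ∃ d : Fin 3 → ℕ, mw_IsMultiHom (mw_resb_block3 r s) p d := by
  obtain ⟨h, d, e, ⟨h1, h2⟩, -, rfl⟩ := hp
  refine ⟨![0, d, e], fun j' => ?_⟩
  rw [rename_eq_aeval]
  fin_cases j'
  · refine mw_resb_aeval_homog h _ _ _ _ ?_ (mw_resb_homog_zero h)
    intro v
    have hv := isWeightedHomogeneous_X mw_K
      (fun i => if mw_resb_block3 r s i = 0 then 1 else 0) (Sum.inr v : mw_resb_Var3 r s)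
    rcases v with b | l <;> simpa [mw_resb_block3] using hv
  · refine mw_resb_aeval_homog h _ _ _ _ ?_ h1
    intro v
    have hv := isWeightedHomogeneous_X mw_K
      (fun i => if mw_resb_block3 r s i = 1 then 1 else 0) (Sum.inr v : mw_resb_Var3 r s)
    rcases v with b | l <;> simpa [mw_resb_block3] using hv
  · refine mw_resb_aeval_homog h _ _ _ _ ?_ h2
    intro v
    have hv := isWeightedHomogeneous_X mw_K
      (fun i => if mw_resb_block3 r s i = 2 then 1 else 0) (Sum.inr v : mw_resb_Var3 r s)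
    rcases v with b | l <;> simpa [mw_resb_block3] using hv

/-- the relations vanish at the points of the curve -/
theorem mw_resb_Gen_eval (hx : ∃ b, x b ≠ 0) (hy : ∃ b, y b ≠ 0)
    (p : MvPolynomial (mw_resb_Var3 r s) mw_K) (hp : p ∈ mw_resb_Gen x y)
    (cc : Fin (s + 1) → mw_K) (P : mw_X N) :
    eval (mw_resb_pt3 cc (mw_vec x P) (mw_vec y P)) p = 0 := by
  obtain ⟨h, d, e, hh, h0, rfl⟩ := hp
  rw [eval_rename]
  exact mw_resb_eval_vec_of_rel x y hx hy h d e hh h0 P

/-! ### block norms -/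

section Norm

variable (K' : IntermediateField ℚ mw_K) (w : AbsoluteValue ↥K' ℝ)

theorem mw_resb_blockNorm (cc : Fin (s + 1) → mw_K) (xv : Fin (r + 1) → mw_K)
    (yv : Fin (s + 1) → mw_K) :
    mw_blockNorm K' w (mw_resb_block3 r s) 0 (mw_resb_pt3 cc xv yv) = mw_wnorm K' w cc ∧
    mw_blockNorm K' w (mw_resb_block3 r s) 1 (mw_resb_pt3 cc xv yv) = mw_wnorm K' w xv ∧
    mw_blockNorm K' w (mw_resb_block3 r s) 2 (mw_resb_pt3 cc xv yv) = mw_wnorm K' w yv := by
  have hbdd : ∀ j' : Fin 3, BddAbove (Set.range fun i : mw_resb_Var3 r s =>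
      mw_wabs K' w (if mw_resb_block3 r s i = j' then mw_resb_pt3 cc xv yv i else 0)) :=
    fun j' => (Set.finite_range _).bddAbove
  refine ⟨?_, ?_, ?_⟩
  · unfold mw_blockNorm
    refine le_antisymm (ciSup_le fun i => ?_) (ciSup_le fun l => ?_)
    · rcases i with l | b | l
      · simpa [mw_resb_block3, mw_resb_pt3] using mw_la_le_wnorm K' w cc l
      · simpa [mw_resb_block3, mw_resb_pt3] using mw_la_wnorm_nonneg K' w cc
      · simpa [mw_resb_block3, mw_resb_pt3] using mw_la_wnorm_nonneg K' w cc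
    · have := le_ciSup (hbdd 0) (Sum.inl l)
      simpa [mw_resb_block3, mw_resb_pt3, mw_wnorm] using this
  · unfold mw_blockNorm
    refine le_antisymm (ciSup_le fun i => ?_) (ciSup_le fun l => ?_)
    · rcases i with l | b | l
      · simpa [mw_resb_block3, mw_resb_pt3] using mw_la_wnorm_nonneg K' w xv
      · simpa [mw_resb_block3, mw_resb_pt3] using mw_la_le_wnorm K' w xv b
      · simpa [mw_resb_block3, mw_resb_pt3] using mw_la_wnorm_nonneg K' w xv
    · have := le_ciSup (hbdd 1) (Sum.inr (Sum.inl l))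
      simpa [mw_resb_block3, mw_resb_pt3, mw_wnorm] using this
  · unfold mw_blockNorm
    refine le_antisymm (ciSup_le fun i => ?_) (ciSup_le fun l => ?_)
    · rcases i with l | b | l
      · simpa [mw_resb_block3, mw_resb_pt3] using mw_la_wnorm_nonneg K' w yv
      · simpa [mw_resb_block3, mw_resb_pt3] using mw_la_wnorm_nonneg K' w yv
      · simpa [mw_resb_block3, mw_resb_pt3] using mw_la_le_wnorm K' w yv l
    · have := le_ciSup (hbdd 2) (Sum.inr (Sum.inr l))
      simpa [mw_resb_block3, mw_resb_pt3, mw_wnorm] using this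

end Norm

end Fermat.Agent.MW
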