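/-
Project MW (S17), local core, leaf [RESb] (helper22): the CLOSED TERM `mw_resb_closed N :
mw_SeamRESb N` (plugging [NSS], [HOMV], [VAR], [EMB]).
-/
import Fermat.Agent.MW.Core.RESb
import Fermat.Agent.MW.Core.HOMV
import Fermat.Agent.MW.Core.NSS
import Fermat.Agent.MW.Core.VAR
import Fermat.Agent.MW.Core.EMB

set_option autoImplicit false

namespace Fermat.Agent.MW

/-- **[RESb]**, closed -/
theorem mw_resb_closed (N : ℕ) [NeZero N] : mw_SeamRESb N :=
  mw_resb N (mw_homv mw_nss) (mw_var N) (mw_emb N)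

end Fermat.Agent.MW
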