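/-
Project MW (S17), local core, leaf [RESb] (helper22), file 6: THE TRANSVERSAL HYPERPLANE.

For a reference embedding `x` (separating points and tangent vectors: `mw_SeamEMB`), a point `P₀`
and a finite set `T` of other points there is a hyperplane `u₀` through `P₀`, simple at `P₀`
(`mw_zeroMult x u₀ P₀ = 1`), missing `T`; and `u₀ = λ_{x(P₀)}(U₀)` for some `U₀`.
Prefix `mw_resb_`.
-/
import Fermat.Agent.MW.Core.RESb.Van
import Fermat.Agent.MW.Core.Seams2

set_option autoImplicit false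
set_option linter.unusedSectionVars false

noncomputable section

namespace Fermat.Agent.MW

open AlgebraicCurve ModularCurve MvPolynomial Fermat.Agent.JT3
open scoped Classical

/-! ### linear algebra: avoiding finitely many hyperplanes inside a hyperplane -/

section Lin

variable {n : ℕ}

/-- the linear form `u ↦ ⟨u, w⟩` -/
def mw_resb_dotL (w : Fin (n + 1) → mw_K) : (Fin (n + 1) → mw_K) →ₗ[mw_K] mw_K where
  toFun u := mw_dot u w
  map_add' u u' := by
    simp only [mw_dot, Pi.add_apply, add_mul, Finset.sum_add_distrib]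
  map_smul' c u := by
    simp only [mw_dot, Pi.smul_apply, smul_eq_mul, RingHom.id_apply, Finset.mul_sum, mul_assoc]

theorem mw_resb_dotL_apply (w u : Fin (n + 1) → mw_K) : mw_resb_dotL w u = mw_dot u w := rfl

/-- if `w ∧ v ≠ 0` there is `u ⊥ v` with `⟨u, w⟩ ≠ 0` -/
theorem mw_resb_exists_perp {v w : Fin (n + 1) → mw_K} (h : mw_wedge w v ≠ 0) :
    ∃ u : Fin (n + 1) → mw_K, mw_dot u v = 0 ∧ mw_dot u w ≠ 0 := by
  obtain ⟨⟨p, q⟩, hpq⟩ := Function.ne_iff.1 h
  simp only [mw_wedge, Pi.zero_apply] at hpq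
  have hne : p ≠ q := by
    rintro rfl
    exact hpq (sub_self _)
  refine ⟨fun b => (if b = p then v q else 0) - (if b = q then v p else 0), ?_, ?_⟩
  · simp only [mw_dot, sub_mul, ite_mul, zero_mul, Finset.sum_sub_distrib, Finset.sum_ite_eq',
      Finset.mem_univ, if_true]
    ring
  · simp only [mw_dot, sub_mul, ite_mul, zero_mul, Finset.sum_sub_distrib, Finset.sum_ite_eq',
      Finset.mem_univ, if_true]
    intro h0
    apply hpq
    linear_combination h0

/-- **avoidance**: inside the hyperplane `v^⊥`, finitely many conditions `⟨u, w⟩ ≠ 0` (each of them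
satisfiable) are simultaneously satisfiable -/
theorem mw_resb_avoid (v : Fin (n + 1) → mw_K) (W : Finset (Fin (n + 1) → mw_K))
    (hW : ∀ w ∈ W, ∃ u : Fin (n + 1) → mw_K, mw_dot u v = 0 ∧ mw_dot u w ≠ 0) :
    ∃ u : Fin (n + 1) → mw_K, mw_dot u v = 0 ∧ ∀ w ∈ W, mw_dot u w ≠ 0 := by
  set V : Submodule mw_K (Fin (n + 1) → mw_K) := LinearMap.ker (mw_resb_dotL v) with hV
  set S : (Fin (n + 1) → mw_K) → Subspace mw_K ↥V :=
    fun w => LinearMap.ker ((mw_resb_dotL w).domRestrict V) with hS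
  have htop : (⊤ : Subspace mw_K ↥V) ∉ W.image S := by
    intro hmem
    obtain ⟨w, hw, hwS⟩ := Finset.mem_image.1 hmem
    obtain ⟨u, hu1, hu2⟩ := hW w hw
    have huV : u ∈ V := by
      rw [hV, LinearMap.mem_ker, mw_resb_dotL_apply]
      exact hu1
    have : (⟨u, huV⟩ : ↥V) ∈ S w := by
      rw [hwS]
      trivial
    rw [hS, LinearMap.mem_ker, LinearMap.domRestrict_apply, mw_resb_dotL_apply] at this
    exact hu2 this
  have hne := Subspace.biUnion_ne_univ_of_top_notMem htop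
  obtain ⟨u, hu⟩ := (Set.ne_univ_iff_exists_notMem _).1 hne
  refine ⟨u.1, ?_, fun w hw => ?_⟩
  · exact (LinearMap.mem_ker.1 u.2 : mw_resb_dotL v u.1 = 0)
  · intro h0
    apply hu
    simp only [Set.mem_iUnion, SetLike.mem_coe, exists_prop]
    refine ⟨S w, Finset.mem_image_of_mem S hw, ?_⟩
    rw [hS, LinearMap.mem_ker, LinearMap.domRestrict_apply, mw_resb_dotL_apply]
    exact h0

end Lin

variable {N : ℕ} [NeZero N] {r : ℕ}

/-! ### simple zeros -/

/-- a section vanishing at `P` whose "derivative" `⟨u, τ(P)⟩` does not vanish has a simple zero -/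
theorem mw_resb_zeroMult_eq_one (x : Fin (r + 1) → mw_F N) (hx : LinearIndependent mw_K x)
    (P : mw_X N) (π : mw_F N) (hπ : P.ord π = 1) (u : Fin (r + 1) → mw_K)
    (h1 : mw_dot u (mw_vec x P) = 0) (h2 : mw_dot u (mw_tanAt N x P π) ≠ 0) :
    mw_zeroMult x u P = 1 := by
  have hx0 : ∃ b, x b ≠ 0 := mw_v_exists_ne_zero hx
  obtain ⟨hp, hmem⟩ := mw_v_piv_spec x hx0 P
  have hπ0 : π ≠ 0 := by
    rintro rfl
    rw [Place.ord_zero] at hπ
    exact zero_ne_one hπ
  set ξ : Fin (r + 1) → mw_F N := fun b =>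
    (x b / x (mw_piv x P) - algebraMap mw_K (mw_F N) (mw_vec x P b)) / π with hξdef
  have hξ : ∀ b, ξ b ∈ P.toValuationSubring := by
    intro b
    have hd := mw_v_spec P (hmem b)
    by_cases hd0 : x b / x (mw_piv x P) - algebraMap mw_K (mw_F N) (mw_val P (x b / x (mw_piv x P)))
        = 0
    · have : ξ b = 0 := by
        simp only [hξdef, mw_vec]
        rw [hd0, zero_div]
      rw [this]
      exact P.toValuationSubring.zero_mem
    · have hpos := (mw_v_mem_nonunits_iff P hd0).1 hd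
      have hne : ξ b ≠ 0 := div_ne_zero hd0 hπ0
      rw [mw_v_mem_iff P hne]
      simp only [hξdef, mw_vec]
      rw [div_eq_mul_inv, P.ord_mul hd0 (inv_ne_zero hπ0), P.ord_inv, hπ]
      omega
  have hτ : ∀ b, mw_val P (ξ b) = mw_tanAt N x P π b := fun b => rfl
  set Ξ : mw_F N := ∑ b, algebraMap mw_K (mw_F N) (u b) * ξ b with hΞdef
  have hΞmem : Ξ ∈ P.toValuationSubring :=
    P.toValuationSubring.sum_mem fun b _ =>
      P.toValuationSubring.mul_mem _ _ (mw_v_const_mem P _) (hξ b)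
  have hΞval : mw_val P Ξ = mw_dot u (mw_tanAt N x P π) := by
    rw [hΞdef, mw_v_sum P _ _ fun b _ =>
      P.toValuationSubring.mul_mem _ _ (mw_v_const_mem P _) (hξ b), mw_dot]
    exact Finset.sum_congr rfl fun b _ => by rw [mw_v_const_mul P _ (hξ b), hτ]
  have hkey : mw_sec x u / x (mw_piv x P) = π * Ξ := by
    rw [mw_v_sec_div, hΞdef, Finset.mul_sum]
    have hsum : ∑ b, π * (algebraMap mw_K (mw_F N) (u b) * ξ b)
        = ∑ b, algebraMap mw_K (mw_F N) (u b) * (x b / x (mw_piv x P))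
          - algebraMap mw_K (mw_F N) (mw_dot u (mw_vec x P)) := by
      rw [mw_dot, map_sum, ← Finset.sum_sub_distrib]
      refine Finset.sum_congr rfl fun b _ => ?_
      simp only [hξdef]
      rw [map_mul]
      field_simp
    rw [hsum, h1, map_zero, sub_zero]
  have hΞ0 : Ξ ≠ 0 := by
    intro h0
    rw [h0, mw_v_zero] at hΞval
    exact h2 hΞval.symm
  have hΞord : P.ord Ξ = 0 := by
    have hge := (mw_v_mem_iff P hΞ0).1 hΞmem
    have hnot : ¬ 0 < P.ord Ξ := by
      intro hpos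
      have := (mw_v_eq_zero_iff_ord P hΞ0 hge).2 hpos
      rw [hΞval] at this
      exact h2 this
    omega
  rw [mw_zeroMult, hkey, P.ord_mul hπ0 hΞ0, hπ, hΞord]
  rfl

/-! ### the transversal hyperplane -/

/-- **the transversal hyperplane** through `P₀`, simple at `P₀`, missing the finite set `T` -/
theorem mw_resb_exists_hyp (hEMB : mw_SeamEMB N) (x : Fin (r + 1) → mw_F N)
    (hxref : mw_IsRef N x) (P₀ : mw_X N) (T : Finset (mw_X N)) (hT : P₀ ∉ T) :
    ∃ u₀ : Fin (r + 1) → mw_K, mw_dot u₀ (mw_vec x P₀) = 0 ∧ mw_zeroMult x u₀ P₀ = 1 ∧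
      ∀ z ∈ T, mw_dot u₀ (mw_vec x z) ≠ 0 := by
  obtain ⟨π, -, hπ⟩ := rt_exists_ord_eq_one P₀
  obtain ⟨hsep, htan⟩ := hEMB x hxref
  set W : Finset (Fin (r + 1) → mw_K) :=
    insert (mw_tanAt N x P₀ π) (T.image fun z => mw_vec x z) with hW
  have hWex : ∀ w ∈ W, ∃ u : Fin (r + 1) → mw_K, mw_dot u (mw_vec x P₀) = 0 ∧ mw_dot u w ≠ 0 := by
    intro w hw
    rw [hW, Finset.mem_insert, Finset.mem_image] at hw
    rcases hw with rfl | ⟨z, hz, rfl⟩
    · exact mw_resb_exists_perp (htan P₀ π hπ)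
    · refine mw_resb_exists_perp (hsep z P₀ ?_)
      rintro rfl
      exact hT hz
  obtain ⟨u, hu1, hu2⟩ := mw_resb_avoid (mw_vec x P₀) W hWex
  refine ⟨u, hu1, mw_resb_zeroMult_eq_one x hxref.2.1 P₀ π hπ u hu1 ?_, fun z hz => ?_⟩
  · exact hu2 _ (Finset.mem_insert_self _ _)
  · exact hu2 _ (Finset.mem_insert_of_mem (Finset.mem_image_of_mem _ hz))

/-- every vector orthogonal to `v` (with a coordinate `v p = 1`) is a `λ_v(U)` -/
theorem mw_resb_hyp_surj (v : Fin (r + 1) → mw_K) (p : Fin (r + 1)) (hp : v p = 1)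
    (u : Fin (r + 1) → mw_K) (hu : mw_dot u v = 0) :
    mw_resb_hyp v (fun q => if q.1 = p then u q.2 else 0) = u := by
  funext b
  unfold mw_resb_hyp
  simp only [mul_sub, Finset.sum_sub_distrib, mul_ite, mul_zero, Finset.sum_ite_eq',
    Finset.mem_univ, if_true, hp, one_mul]
  have h2 : (∑ a, if b = p then v a * u a else 0) = 0 := by
    split_ifs
    · rw [mw_dot] at hu
      rw [← hu]
      exact Finset.sum_congr rfl fun a _ => mul_comm _ _
    · exact Finset.sum_const_zero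
  rw [h2, sub_zero]

end Fermat.Agent.MW
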